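import Fermat.Agent.S56.EU.Torsion
import Fermat.Agent.S55.SUnits

/-!
# S56, package EU: `eu_main` = the equivariant `S`-unit theorem mod `p`
-/

set_option autoImplicit false
set_option linter.unusedSectionVars false
set_option linter.style.haveILetI false

open NumberField NumberField.Units IsDedekindDomain
open Fermat.Agent.S55 (sunitOrd sunitOrd_apply sunitOfUnit sunitOfUnit_coe sunitOfUnit_injective
  sunitOrd_ker sunitOrd_range_index_ne_zero)

namespace Fermat.Agent.S56

section SUnits

variable {T : Type*} [Field T] [NumberField T] {Δ : Type*} [Group Δ] [Fintype Δ]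
  [MulSemiringAction Δ T]
  {Y : Type*} [Fintype Y] [MulAction Δ Y] (plf : Y → HeightOneSpectrum (𝓞 T))
  {E : Type*} [CommGroup E] [MulDistribMulAction Δ E] (ι : E →* Tˣ)

attribute [local instance] Units.mulDistribMulActionRight

/-- the valuation vector `e ↦ (ord_y(ι e))_y` -/
noncomputable def euOrd : Additive E →+ (Y → ℤ) where
  toFun e y := WithZero.log ((plf y).valuation T ((ι e.toMul : Tˣ) : T))
  map_zero' := by
    funext y
    simp
  map_add' e e' := by
    funext y
    show WithZero.log ((plf y).valuation T ((ι (e.toMul * e'.toMul) : Tˣ) : T)) = _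
    rw [map_mul, Units.val_mul, map_mul, WithZero.log_mul]
    · rfl
    · exact (Valuation.ne_zero_iff _).mpr (Units.ne_zero _)
    · exact (Valuation.ne_zero_iff _).mpr (Units.ne_zero _)

theorem euOrd_apply (e : Additive E) (y : Y) :
    euOrd plf ι e y = WithZero.log ((plf y).valuation T ((ι e.toMul : Tˣ) : T)) := rfl

variable (hplf_eq : ∀ (δ : Δ) (y : Y) (x : T),
    (plf (δ • y)).valuation T (δ • x) = (plf y).valuation T x)
  (hι_eq : ∀ (δ : Δ) (e : E), ((ι (δ • e) : Tˣ) : T) = δ • ((ι e : Tˣ) : T))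

include hplf_eq hι_eq in
theorem euOrd_equivariant (δ : Δ) (e : Additive E) :
    euOrd plf ι (euActMul Δ E δ e) = euActPerm Δ Y δ (euOrd plf ι e) := by
  funext y
  rw [euActPerm_apply, euOrd_apply, euOrd_apply, euActMul_apply, toMul_ofMul, hι_eq]
  have := hplf_eq δ (δ⁻¹ • y) ((ι e.toMul : Tˣ) : T)
  rw [smul_inv_smul] at this
  rw [this]

/-- the image of the valuation vector -/
noncomputable def euOrdRange : AddSubgroup (Y → ℤ) := (euOrd plf ι).range

include hplf_eq hι_eq in
theorem euOrdRange_stable (δ : Δ) (φ : Y → ℤ) (hφ : φ ∈ euOrdRange plf ι) :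
    euActPerm Δ Y δ φ ∈ euOrdRange plf ι := by
  obtain ⟨e, rfl⟩ := hφ
  exact ⟨euActMul Δ E δ e, euOrd_equivariant plf ι hplf_eq hι_eq δ e⟩

/-- the action on the image of the valuation vector -/
noncomputable def euActOrdRange : EuAct Δ (euOrdRange plf ι) :=
  euActRestrict (euActPerm Δ Y) (euOrdRange plf ι)
    (fun δ φ hφ => euOrdRange_stable plf ι hplf_eq hι_eq δ φ hφ)

/-- `ord : E → range` -/
noncomputable def euOrdR : Additive E →+ euOrdRange plf ι := (euOrd plf ι).rangeRestrict

theorem euOrdR_surjective : Function.Surjective (euOrdR plf ι) :=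
  (euOrd plf ι).rangeRestrict_surjective

theorem euOrdR_equivariant (δ : Δ) (e : Additive E) :
    euOrdR plf ι (euActMul Δ E δ e) = euActOrdRange plf ι hplf_eq hι_eq δ (euOrdR plf ι e) :=
  Subtype.ext (euOrd_equivariant plf ι hplf_eq hι_eq δ e)

section Embed

variable (hplf : Function.Injective plf) (hι : Function.Injective ι)
  (hι_range : ι.range = (Set.range plf).unit T)

open Classical in
/-- the finite set `S` of places -/
noncomputable def euS : Finset (HeightOneSpectrum (𝓞 T)) := Finset.univ.image plf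

theorem euS_coe : ((euS plf : Finset (HeightOneSpectrum (𝓞 T))) : Set (HeightOneSpectrum (𝓞 T))) =
    Set.range plf := by
  classical
  rw [euS, Finset.coe_image, Finset.coe_univ, Set.image_univ]

theorem euS_mem (y : Y) : plf y ∈ euS plf := by
  classical
  unfold euS
  exact Finset.mem_image_of_mem _ (Finset.mem_univ y)

theorem euS_exists {v : HeightOneSpectrum (𝓞 T)} (hv : v ∈ euS plf) : ∃ y, plf y = v := by
  classical
  unfold euS at hv
  obtain ⟨y, -, hy⟩ := Finset.mem_image.mp hv
  exact ⟨y, hy⟩

include hι_range in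
theorem eu_mem_unit (e : E) :
    ι e ∈ ((euS plf : Finset (HeightOneSpectrum (𝓞 T))) : Set (HeightOneSpectrum (𝓞 T))).unit T := by
  rw [euS_coe, ← hι_range]
  exact ⟨e, rfl⟩

/-- `ι` as a map onto the `S`-units -/
noncomputable def euIotaS : E →*
    ((euS plf : Finset (HeightOneSpectrum (𝓞 T))) : Set (HeightOneSpectrum (𝓞 T))).unit T :=
  ι.codRestrict _ (fun e => eu_mem_unit plf ι hι_range e)

theorem euIotaS_coe (e : E) : ((euIotaS plf ι hι_range e : _) : Tˣ) = ι e := rfl

include hι in
theorem euIotaS_injective : Function.Injective (euIotaS plf ι hι_range) := by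
  intro e e' h
  apply hι
  have := congrArg Subtype.val h
  exact this

theorem euIotaS_surjective : Function.Surjective (euIotaS plf ι hι_range) := by
  intro x
  have hx : (x : Tˣ) ∈ ι.range := by
    rw [hι_range, ← euS_coe]
    exact x.2
  obtain ⟨e, he⟩ := hx
  exact ⟨e, Subtype.ext he⟩

/-- `E ≃ S`-units -/
noncomputable def euEquivS : E ≃*
    ((euS plf : Finset (HeightOneSpectrum (𝓞 T))) : Set (HeightOneSpectrum (𝓞 T))).unit T :=
  MulEquiv.ofBijective (euIotaS plf ι hι_range)
    ⟨euIotaS_injective plf ι hι hι_range, euIotaS_surjective plf ι hι_range⟩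

theorem euEquivS_apply (e : E) : euEquivS plf ι hι hι_range e = euIotaS plf ι hι_range e := rfl

/-- the embedding of the units of `𝓞 T` into `E` -/
noncomputable def euJ : Additive (𝓞 T)ˣ →+ Additive E :=
  MonoidHom.toAdditive
    ((euEquivS plf ι hι hι_range).symm.toMonoidHom.comp (sunitOfUnit T (euS plf)))

theorem euJ_coe (u : Additive (𝓞 T)ˣ) :
    ((ι (euJ plf ι hι hι_range u).toMul : Tˣ) : T) = ((u.toMul : (𝓞 T)ˣ) : T) := by
  have h1 : euEquivS plf ι hι hι_range ((euJ plf ι hι hι_range u).toMul) =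
      sunitOfUnit T (euS plf) u.toMul :=
    (euEquivS plf ι hι hι_range).apply_symm_apply _
  have h2 := congrArg (fun x : ((euS plf : Finset (HeightOneSpectrum (𝓞 T))) :
    Set (HeightOneSpectrum (𝓞 T))).unit T => ((x : Tˣ) : T)) h1
  exact h2

theorem euJ_injective : Function.Injective (euJ plf ι hι hι_range) := by
  intro u u' h
  have h1 : sunitOfUnit T (euS plf) u.toMul = sunitOfUnit T (euS plf) u'.toMul :=
    (euEquivS plf ι hι hι_range).symm.injective h
  exact sunitOfUnit_injective T (euS plf) h1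

include hι_eq in
theorem euJ_equivariant (δ : Δ) (u : Additive (𝓞 T)ˣ) :
    euJ plf ι hι hι_range (euActU T Δ δ u) = euActMul Δ E δ (euJ plf ι hι hι_range u) := by
  have hinj : Function.Injective (fun e : E => ((ι e : Tˣ) : T)) := fun e e' h =>
    hι (Units.ext h)
  apply hinj
  show ((ι (euJ plf ι hι hι_range (euActU T Δ δ u)).toMul : Tˣ) : T) =
    ((ι (δ • (euJ plf ι hι hι_range u).toMul) : Tˣ) : T)
  rw [euJ_coe, hι_eq, euJ_coe, euActU_coe]

theorem euOrd_eq_sunitOrd (e : Additive E) (y : Y) :
    euOrd plf ι e y = Multiplicative.toAdd (sunitOrd T (euS plf) (euIotaS plf ι hι_range e.toMul))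
      ⟨plf y, euS_mem plf y⟩ := rfl

include hplf in
theorem euOrd_eq_zero_iff (e : Additive E) :
    euOrd plf ι e = 0 ↔ ∃ u, euJ plf ι hι hι_range u = e := by
  have hker := sunitOrd_ker T (euS plf)
  constructor
  · intro h
    have h1 : euIotaS plf ι hι_range e.toMul ∈ (sunitOrd T (euS plf)).ker := by
      rw [MonoidHom.mem_ker]
      apply Multiplicative.toAdd.injective
      funext v
      obtain ⟨y, hy⟩ := euS_exists plf v.2
      have h2 := congrFun h y
      rw [euOrd_eq_sunitOrd plf ι hι_range] at h2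
      have hv : v = ⟨plf y, euS_mem plf y⟩ := Subtype.ext hy.symm
      rw [hv]
      exact h2
    rw [hker] at h1
    obtain ⟨u, hu⟩ := h1
    refine ⟨Additive.ofMul u, ?_⟩
    show Additive.ofMul ((euEquivS plf ι hι hι_range).symm (sunitOfUnit T (euS plf) u)) = e
    rw [hu, ← euEquivS_apply plf ι hι hι_range, MulEquiv.symm_apply_apply]
    rfl
  · rintro ⟨u, rfl⟩
    funext y
    rw [euOrd_apply, euJ_coe]
    have h1 : sunitOfUnit T (euS plf) u.toMul ∈ (sunitOrd T (euS plf)).ker := by
      rw [hker]
      exact ⟨_, rfl⟩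
    have h2 := congrFun (congrArg Multiplicative.toAdd (MonoidHom.mem_ker.mp h1))
      ⟨plf y, euS_mem plf y⟩
    exact h2

include hplf hι_range in
theorem euOrdRange_index_ne_zero : (euOrdRange plf ι).index ≠ 0 := by
  classical
  have h0 := sunitOrd_range_index_ne_zero T (euS plf)
  -- the bijection `Y ≃ S`
  let eY : Y ≃ (euS plf : Finset (HeightOneSpectrum (𝓞 T))) :=
    Equiv.ofBijective (fun y => ⟨plf y, euS_mem plf y⟩)
      ⟨fun y y' h => hplf (congrArg Subtype.val h), fun v => by
        obtain ⟨y, hy⟩ := euS_exists plf v.2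
        exact ⟨y, Subtype.ext hy⟩⟩
  let φ : (↥(euS plf) → ℤ) ≃+ (Y → ℤ) :=
    { toFun := fun g y => g (eY y)
      invFun := fun g v => g (eY.symm v)
      left_inv := fun g => by
        funext v
        simp
      right_inv := fun g => by
        funext y
        simp
      map_add' := fun _ _ => rfl }
  let Φ := AddEquiv.toMultiplicative φ
  have hmap : (AddSubgroup.toSubgroup (euOrdRange plf ι)) =
      (sunitOrd T (euS plf)).range.map (Φ : _ →* _) := by
    ext x
    constructor
    · rintro ⟨e, he⟩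
      refine ⟨sunitOrd T (euS plf) (euIotaS plf ι hι_range e.toMul), ⟨_, rfl⟩, ?_⟩
      apply Multiplicative.toAdd.injective
      rw [← he]
      rfl
    · rintro ⟨_, ⟨s, rfl⟩, rfl⟩
      obtain ⟨e, rfl⟩ := euIotaS_surjective plf ι hι_range s
      exact ⟨Additive.ofMul e, rfl⟩
  rw [← AddSubgroup.index_toSubgroup, hmap, Subgroup.index_map_equiv]
  exact h0

include hplf hι hι_range in
/-- the `S`-units are finitely generated -/
theorem eu_module_finite : Module.Finite ℤ (Additive E) := by
  rw [Module.finite_def]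
  let f : Additive E →ₗ[ℤ] (Y → ℤ) := (euOrd plf ι).toIntLinearMap
  apply Submodule.fg_of_fg_map_of_fg_inf_ker f
  · exact IsNoetherian.noetherian _
  · have h1 : (⊤ ⊓ LinearMap.ker f) =
        LinearMap.range (euJ plf ι hι hι_range).toIntLinearMap := by
      rw [top_inf_eq]
      ext e
      rw [LinearMap.mem_ker, LinearMap.mem_range]
      exact euOrd_eq_zero_iff plf ι hplf hι hι_range e
    rw [h1, LinearMap.range_eq_map]
    exact Submodule.FG.map _ (Module.finite_def.mp inferInstance)

end Embed

section Assembly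

variable {Z : Type*} [Fintype Z] [MulAction Δ Z] (pli : Z → InfinitePlace T)

/-- the equivariant `S`-unit theorem mod `p`, `Fintype` version -/
theorem eu_main_fintype (p : ℕ) [Fact p.Prime] {k : Type*} [Field k] [CharP k p]
    (hΔ : (Nat.card Δ).Coprime p) (χ : Δ →* kˣ)
    (hplf : Function.Injective plf)
    (hplf_eq : ∀ (δ : Δ) (y : Y) (x : T),
      (plf (δ • y)).valuation T (δ • x) = (plf y).valuation T x)
    (hpli : Function.Bijective pli)
    (hpli_eq : ∀ (δ : Δ) (z : Z) (x : T), pli (δ • z) (δ • x) = pli z x)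
    (hι : Function.Injective ι)
    (hι_eq : ∀ (δ : Δ) (e : E), ((ι (δ • e) : Tˣ) : T) = δ • ((ι e : Tˣ) : T))
    (hι_range : ι.range = (Set.range plf).unit T) :
    euDim χ (euActMul Δ E) + euTrivInd χ =
      euOmegaInd T Δ p χ + euOrbCount χ Y + euOrbCount χ Z := by
  haveI : Module.Finite ℤ (Additive E) := eu_module_finite plf ι hplf hι hι_range
  haveI := eu_finite χ (euActMul Δ E)
  have hSES := euDim_of_exact p χ (euActU T Δ) (euActMul Δ E)
    (euActOrdRange plf ι hplf_eq hι_eq) hΔ
    (euJ plf ι hι hι_range) (euOrdR plf ι)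
    (fun δ u => euJ_equivariant plf ι hι_eq hι hι_range δ u)
    (fun δ e => euOrdR_equivariant plf ι hplf_eq hι_eq δ e)
    (euJ_injective plf ι hι hι_range) (euOrdR_surjective plf ι)
    (fun e => by
      rw [← euOrd_eq_zero_iff plf ι hplf hι hι_range e]
      constructor
      · intro h
        exact congrArg Subtype.val h
      · intro h
        exact Subtype.ext h)
    (fun c hc => by
      apply Subtype.ext
      funext y
      have h1 := congrFun (congrArg Subtype.val hc) y
      have h2 : p • ((c : Y → ℤ) y) = 0 := h1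
      rw [nsmul_eq_mul] at h2
      rcases mul_eq_zero.mp h2 with h3 | h3
      · exact absurd (by exact_mod_cast h3) (Fact.out : p.Prime).ne_zero
      · exact h3)
  have hFI := euDim_eq_of_finiteIndex p χ hΔ (euActOrdRange plf ι hplf_eq hι_eq)
    (euActPerm Δ Y) (euOrdRange plf ι).subtype (fun δ a => rfl) Subtype.val_injective
    (fun b hb => by
      funext y
      have h2 : p • (b y) = 0 := congrFun hb y
      rw [nsmul_eq_mul] at h2
      rcases mul_eq_zero.mp h2 with h3 | h3
      · exact absurd (by exact_mod_cast h3) (Fact.out : p.Prime).ne_zero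
      · exact h3)
    (by
      rw [AddSubgroup.range_subtype]
      exact euOrdRange_index_ne_zero plf ι hplf hι_range)
  have hP := euDim_perm χ Y
  have hU := eu_units pli hpli hpli_eq p χ hΔ
  have hT := euDim_tors (T := T) (Δ := Δ) p χ
  omega

end Assembly

end SUnits

/-- **EQUIVARIANT `S`-UNIT THEOREM mod `p`** (see `EU/Defs.lean` for the vocabulary):
`d_χ(E_S/p) + [χ = 1] = [ζ_p ∈ T ∧ χ = ω] + #{orbits on S_f with χ|Stab = 1}
  + #{orbits on S_∞ with χ|Stab = 1}`. -/
theorem eu_main
    (T : Type*) [Field T] [NumberField T] (Δ : Type*) [Group Δ] [Finite Δ] [MulSemiringAction Δ T]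
    (p : ℕ) [Fact p.Prime] (k : Type*) [Field k] [CharP k p] (hΔ : (Nat.card Δ).Coprime p)
    (χ : Δ →* kˣ)
    -- the finite places in `S`
    (Y : Type*) [Finite Y] [MulAction Δ Y] (plf : Y → HeightOneSpectrum (𝓞 T))
    (hplf : Function.Injective plf)
    (hplf_eq : ∀ (δ : Δ) (y : Y) (x : T),
      (plf (δ • y)).valuation T (δ • x) = (plf y).valuation T x)
    -- the infinite places
    (Z : Type*) [Finite Z] [MulAction Δ Z] (pli : Z → InfinitePlace T)
    (hpli : Function.Bijective pli)
    (hpli_eq : ∀ (δ : Δ) (z : Z) (x : T), pli (δ • z) (δ • x) = pli z x)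
    -- the `S`-units
    (E : Type*) [CommGroup E] [MulDistribMulAction Δ E] (ι : E →* Tˣ)
    (hι : Function.Injective ι)
    (hι_eq : ∀ (δ : Δ) (e : E), ((ι (δ • e) : Tˣ) : T) = δ • ((ι e : Tˣ) : T))
    (hι_range : ι.range = (Set.range plf).unit T) :
    euDim χ (euActMul Δ E) + euTrivInd χ =
      euOmegaInd T Δ p χ + euOrbCount χ Y + euOrbCount χ Z := by
  classical
  haveI := Fintype.ofFinite Δ
  haveI := Fintype.ofFinite Y
  haveI := Fintype.ofFinite Z
  exact eu_main_fintype plf ι pli p hΔ χ hplf hplf_eq hpli hpli_eq hι hι_eq hι_range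

end Fermat.Agent.S56
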