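import Fermat.Agent.S56.EU.Algebra

/-!
# S56, package EU: (FIN) for a finite `Δ`-module `A`: `d_χ(A[p]) = d_χ(A/p)`

In the `d_χ`-formalism `euDim χ ρ = dim_k Hom_Δ(A, k(χ))` is `d_χ(A/p)` (`char k = p`), so the
statement reads `euDim χ ρT = euDim χ ρA` for any equivariant injection `ι : T → A` with image
`A[p]`.

* `eu_ker_res_eq_range_res_of_exact` : left exactness of `X = Hom_Δ(-, k(χ))`.
* `eu_range_res_eq`                  : (EXT) as a description of the image of the restriction.
* `euDim_congr`                      : equivariant isomorphisms preserve `d_χ`.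
* `euDim_of_exact_tors`              : (SES) for groups killed by `p`.
* `euDim_torsion_eq`                 : (FIN).
-/

set_option autoImplicit false
set_option linter.style.haveILetI false
set_option linter.unusedSectionVars false
set_option linter.unusedVariables false

namespace Fermat.Agent.S56

universe u v

section Fin

variable {Δ : Type*} [Group Δ] [Fintype Δ] {k : Type*} [Field k] (p : ℕ) [Fact p.Prime] [CharP k p]
  (χ : Δ →* kˣ)

section Exact

variable {A B C : Type*} [AddCommGroup A] [AddCommGroup B] [AddCommGroup C]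
  (ρA : EuAct Δ A) (ρB : EuAct Δ B) (ρC : EuAct Δ C)

omit [Fintype Δ] in
/-- left exactness of `Hom_Δ(-, k(χ))`: for `A → B → C → 0` exact, the kernel of the restriction
to `A` is the image of the inflation from `C`. -/
theorem eu_ker_res_eq_range_res_of_exact (ι : A →+ B) (π : B →+ C)
    (hι : ∀ δ a, ι (ρA δ a) = ρB δ (ι a)) (hπ : ∀ δ b, π (ρB δ b) = ρC δ (π b))
    (hsurj : Function.Surjective π) (hex : ∀ b, π b = 0 ↔ ∃ a, ι a = b) :
    LinearMap.ker (euRes χ ι hι) = LinearMap.range (euRes χ π hπ) := by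
  ext g
  constructor
  · intro hg
    have hg' : ∀ a, g.1 (ι a) = 0 := fun a =>
      congrArg (fun x : euX χ ρA => x.1 a) (LinearMap.mem_ker.mp hg)
    have hle : π.ker ≤ g.1.ker := by
      intro b hb
      obtain ⟨a, rfl⟩ := (hex b).mp hb
      exact hg' a
    let h : C →+ k := π.liftOfRightInverse (Function.surjInv hsurj)
      (Function.rightInverse_surjInv hsurj) ⟨g.1, hle⟩
    have hh : ∀ b, h (π b) = g.1 b := fun b =>
      AddMonoidHom.liftOfRightInverse_comp_apply π _ _ ⟨g.1, hle⟩ b
    refine ⟨⟨h, fun δ c => ?_⟩, ?_⟩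
    · obtain ⟨b, rfl⟩ := hsurj c
      rw [← hπ, hh, hh, g.2 δ b]
    · apply Subtype.ext
      ext b
      exact hh b
  · rintro ⟨h, rfl⟩
    rw [LinearMap.mem_ker]
    apply Subtype.ext
    ext a
    show h.1 (π (ι a)) = 0
    rw [(hex _).mpr ⟨a, rfl⟩, map_zero]

/-- (EXT) as a description of the image of the restriction map -/
theorem eu_mem_range_res_iff (hΔ : (Nat.card Δ).Coprime p) (ι : A →+ B)
    (hι : ∀ δ a, ι (ρA δ a) = ρB δ (ι a)) (f : euX χ ρA) :
    f ∈ LinearMap.range (euRes χ ι hι) ↔ ∀ a b, ι a = p • b → f.1 a = 0 := by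
  constructor
  · rintro ⟨g, rfl⟩ a b hab
    show g.1 (ι a) = 0
    rw [hab, map_nsmul, nsmul_eq_mul, CharP.cast_eq_zero k p, zero_mul]
  · intro h
    obtain ⟨g, hg, hgf⟩ := eu_exists_extend p χ hΔ ρA ρB ι hι f.2 h
    exact ⟨⟨g, hg⟩, Subtype.ext (AddMonoidHom.ext hgf)⟩

omit [Fintype Δ] in
/-- equivariant isomorphisms preserve `d_χ` -/
theorem euDim_congr (e : A ≃+ B) (he : ∀ δ a, e (ρA δ a) = ρB δ (e a)) :
    euDim χ ρA = euDim χ ρB := by
  have he' : ∀ δ b, e.symm (ρB δ b) = ρA δ (e.symm b) := by
    intro δ b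
    apply e.injective
    rw [e.apply_symm_apply, he, e.apply_symm_apply]
  let F : euX χ ρB ≃ₗ[k] euX χ ρA :=
    { euRes χ (e : A →+ B) he with
      invFun := euRes χ (e.symm : B →+ A) he'
      left_inv := fun g => by
        apply Subtype.ext
        ext b
        show g.1 (e (e.symm b)) = g.1 b
        rw [e.apply_symm_apply]
      right_inv := fun g => by
        apply Subtype.ext
        ext a
        show g.1 (e.symm (e a)) = g.1 a
        rw [e.symm_apply_apply] }
  exact (LinearEquiv.finrank_eq F).symm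

/-- (SES) with a purity hypothesis: `0 → A → B → C → 0` equivariant exact with
`ι A ∩ p B ⊆ ι (p A)` gives `d(B) = d(A) + d(C)`. -/
theorem euDim_of_exact_pure (hΔ : (Nat.card Δ).Coprime p) (ι : A →+ B) (π : B →+ C)
    (hι : ∀ δ a, ι (ρA δ a) = ρB δ (ι a)) (hπ : ∀ δ b, π (ρB δ b) = ρC δ (π b))
    (hsurj : Function.Surjective π)
    (hex : ∀ b, π b = 0 ↔ ∃ a, ι a = b) (hpure : ∀ a b, ι a = p • b → ∃ a', a = p • a')
    [Module.Finite k (euX χ ρB)] :
    euDim χ ρB = euDim χ ρA + euDim χ ρC := by
  have hsurjι : Function.Surjective (euRes χ ι hι) := by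
    intro f
    have : f ∈ LinearMap.range (euRes χ ι hι) := by
      rw [eu_mem_range_res_iff p χ ρA ρB hΔ ι hι f]
      intro a b hab
      obtain ⟨a', rfl⟩ := hpure a b hab
      rw [map_nsmul, nsmul_eq_mul, CharP.cast_eq_zero k p, zero_mul]
    exact this
  have hker := eu_ker_res_eq_range_res_of_exact χ ρA ρB ρC ι π hι hπ hsurj hex
  have h1 := LinearMap.finrank_range_add_finrank_ker (K := k) (V := euX χ ρB) (V₂ := euX χ ρA)
    (euRes χ ι hι)
  rw [LinearMap.range_eq_top.mpr hsurjι, finrank_top, hker,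
    LinearMap.finrank_range_of_inj (euRes_injective_of_surjective χ π hπ hsurj)] at h1
  exact h1.symm

/-- (SES) for groups killed by `p` -/
theorem euDim_of_exact_tors (hΔ : (Nat.card Δ).Coprime p) (ι : A →+ B) (π : B →+ C)
    (hι : ∀ δ a, ι (ρA δ a) = ρB δ (ι a)) (hπ : ∀ δ b, π (ρB δ b) = ρC δ (π b))
    (hinj : Function.Injective ι) (hsurj : Function.Surjective π)
    (hex : ∀ b, π b = 0 ↔ ∃ a, ι a = b) (hB : ∀ b : B, p • b = 0)
    [Module.Finite k (euX χ ρB)] :
    euDim χ ρB = euDim χ ρA + euDim χ ρC :=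
  euDim_of_exact_pure p χ ρA ρB ρC hΔ ι π hι hπ hsurj hex (fun a b hab => ⟨0, by
    apply hinj
    rw [hab, hB, smul_zero, map_zero]⟩)

end Exact

section Torsion

omit [Fintype Δ] in
/-- `Hom(A, k) = 0` if `p` is surjective on `A` -/
theorem euDim_eq_zero_of_surjective {A : Type*} [AddCommGroup A] (ρA : EuAct Δ A)
    (h : ∀ a : A, ∃ a', p • a' = a) : euDim χ ρA = 0 := by
  unfold euDim
  haveI : Subsingleton (euX χ ρA) := ⟨fun f g => by
    apply Subtype.ext
    ext a
    obtain ⟨a', rfl⟩ := h a
    rw [map_nsmul, map_nsmul, nsmul_eq_mul, nsmul_eq_mul, CharP.cast_eq_zero k p, zero_mul,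
      zero_mul]⟩
  exact Module.finrank_zero_of_subsingleton

theorem euDim_torsion_eq_aux (hΔ : (Nat.card Δ).Coprime p) :
    ∀ n : ℕ, ∀ (A : Type u) (T : Type v) [AddCommGroup A] [AddCommGroup T] [Finite A]
      (ρA : EuAct Δ A) (ρT : EuAct Δ T) (ι : T →+ A),
      (∀ δ t, ι (ρT δ t) = ρA δ (ι t)) → Function.Injective ι →
      (∀ a : A, p • a = 0 ↔ ∃ t, ι t = a) → Nat.card A = n →
      euDim χ ρT = euDim χ ρA := by
  intro n
  induction n using Nat.strong_induction_on with
  | _ n ih =>
  intro A T _ _ _ ρA ρT ι hι hinj hT hn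
  by_cases hsurj : ∀ a : A, ∃ a', p • a' = a
  · -- `p` is bijective on `A`: both sides vanish
    have hinjp : Function.Injective (fun a : A => p • a) :=
      Finite.injective_iff_surjective.mpr hsurj
    rw [euDim_eq_zero_of_surjective p χ ρA hsurj]
    apply euDim_eq_zero_of_surjective p χ ρT
    intro t
    refine ⟨0, ?_⟩
    apply hinj
    have h1 : p • ι t = 0 := (hT _).mpr ⟨t, rfl⟩
    have h2 : ι t = 0 := hinjp (by
      show p • ι t = p • (0 : A)
      rw [h1, smul_zero])
    rw [smul_zero, map_zero, h2]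
  · -- `P = pA` is a proper subgroup
    haveI : Finite T := Finite.of_injective ι hinj
    let P : AddSubgroup A := (nsmulAddMonoidHom p : A →+ A).range
    have hPstab : ∀ δ, ∀ a ∈ P, ρA δ a ∈ P := by
      rintro δ _ ⟨a, rfl⟩
      refine ⟨ρA δ a, ?_⟩
      show p • ρA δ a = ρA δ (p • a)
      rw [map_nsmul]
    let π : A →+ P := (nsmulAddMonoidHom p : A →+ A).rangeRestrict
    have hπsurj : Function.Surjective π := (nsmulAddMonoidHom p : A →+ A).rangeRestrict_surjective
    have hπ : ∀ δ a, π (ρA δ a) = euActRestrict ρA P hPstab δ (π a) := by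
      intro δ a
      apply Subtype.ext
      show p • ρA δ a = ρA δ (p • a)
      rw [map_nsmul]
    let TB : AddSubgroup T := P.comap ι
    have hTBstab : ∀ δ, ∀ t ∈ TB, ρT δ t ∈ TB := by
      intro δ t ht
      show ι (ρT δ t) ∈ P
      rw [hι]
      exact hPstab δ _ ht
    let ι' : TB →+ P := (ι.comp TB.subtype).codRestrict P (fun t => t.2)
    have hι' : ∀ δ t, ι' (euActRestrict ρT TB hTBstab δ t) = euActRestrict ρA P hPstab δ (ι' t) := by
      intro δ t
      apply Subtype.ext
      exact hι δ t
    have hι'inj : Function.Injective ι' := by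
      intro t t' h
      apply Subtype.ext
      apply hinj
      exact congrArg Subtype.val h
    have hT' : ∀ b : P, p • b = 0 ↔ ∃ t, ι' t = b := by
      intro b
      constructor
      · intro hb
        have h1 : p • (b : A) = 0 := congrArg Subtype.val hb
        obtain ⟨t, ht⟩ := (hT _).mp h1
        have htB : t ∈ TB := by
          show ι t ∈ P
          rw [ht]
          exact b.2
        exact ⟨⟨t, htB⟩, Subtype.ext ht⟩
      · rintro ⟨t, rfl⟩
        apply Subtype.ext
        exact (hT _).mpr ⟨(t : T), rfl⟩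
    have hcard : Nat.card P < n := by
      rw [← hn]
      push Not at hsurj
      obtain ⟨a, ha⟩ := hsurj
      exact Finite.card_subtype_lt (p := fun x => x ∈ P) (x := a) (fun ⟨a', ha'⟩ => ha a' ha')
    have hIH := ih (Nat.card P) hcard P TB (euActRestrict ρA P hPstab)
      (euActRestrict ρT TB hTBstab) ι' hι' hι'inj hT' rfl
    -- finite-dimensionality
    haveI : Module.Finite ℤ A := Module.Finite.of_finite
    haveI : Module.Finite ℤ T := Module.Finite.of_finite
    haveI := eu_finite χ ρA
    haveI := eu_finite χ ρT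
    -- (1) rank-nullity for the restriction `X(A) → X(T)`
    have hker1 := eu_ker_res_eq_range_res_of_exact χ ρT ρA (euActRestrict ρA P hPstab) ι π hι hπ
      hπsurj (fun a => by
        rw [← hT a]
        constructor
        · intro h
          exact congrArg Subtype.val h
        · intro h
          exact Subtype.ext h)
    have h1 := LinearMap.finrank_range_add_finrank_ker (K := k) (V := euX χ ρA) (V₂ := euX χ ρT)
      (euRes χ ι hι)
    rw [hker1, LinearMap.finrank_range_of_inj (euRes_injective_of_surjective χ π hπ hπsurj)] at h1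
    -- (2) rank-nullity for the restriction `X(T) → X(TB)`
    have hj : ∀ δ (t : TB), TB.subtype (euActRestrict ρT TB hTBstab δ t) = ρT δ (TB.subtype t) :=
      fun δ t => rfl
    have hTp : ∀ t : T, p • t = 0 := by
      intro t
      apply hinj
      rw [map_nsmul, map_zero]
      exact (hT _).mpr ⟨t, rfl⟩
    have hsurj2 : Function.Surjective (euRes χ TB.subtype hj) := by
      intro f
      have : f ∈ LinearMap.range (euRes χ TB.subtype hj) := by
        rw [eu_mem_range_res_iff p χ _ _ hΔ TB.subtype hj f]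
        intro t' t ht
        rw [hTp t] at ht
        have : t' = 0 := Subtype.ext ht
        rw [this, map_zero]
      exact this
    have hker2 : LinearMap.ker (euRes χ TB.subtype hj) = LinearMap.range (euRes χ ι hι) := by
      ext f
      rw [eu_mem_range_res_iff p χ _ _ hΔ ι hι f, LinearMap.mem_ker]
      constructor
      · intro hf t a hta
        have htB : t ∈ TB := ⟨a, hta.symm⟩
        exact congrArg (fun x : euX χ (euActRestrict ρT TB hTBstab) => x.1 ⟨t, htB⟩) hf
      · intro hf
        apply Subtype.ext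
        ext t
        obtain ⟨a, ha⟩ := t.2
        exact hf t a ha.symm
    have h2 := LinearMap.finrank_range_add_finrank_ker (K := k) (V := euX χ ρT)
      (V₂ := euX χ (euActRestrict ρT TB hTBstab)) (euRes χ TB.subtype hj)
    rw [LinearMap.range_eq_top.mpr hsurj2, finrank_top, hker2] at h2
    unfold euDim at hIH ⊢
    omega

/-- (FIN) for a finite `Δ`-module `A` (`|Δ|` prime to `p`): `d_χ(A[p]) = d_χ(A/p)`; here `A[p]` is
presented by any equivariant injection `ι : T → A` with image the `p`-torsion of `A`. -/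
theorem euDim_torsion_eq (hΔ : (Nat.card Δ).Coprime p) {A : Type u} {T : Type v} [AddCommGroup A]
    [AddCommGroup T] [Finite A] (ρA : EuAct Δ A) (ρT : EuAct Δ T) (ι : T →+ A)
    (hι : ∀ δ t, ι (ρT δ t) = ρA δ (ι t)) (hinj : Function.Injective ι)
    (hT : ∀ a : A, p • a = 0 ↔ ∃ t, ι t = a) :
    euDim χ ρT = euDim χ ρA :=
  euDim_torsion_eq_aux p χ hΔ _ A T ρA ρT ι hι hinj hT rfl

end Torsion

end Fin

end Fermat.Agent.S56
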