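import Mathlib.NumberTheory.NumberField.Units.DirichletTheorem
import Mathlib.RingTheory.DedekindDomain.SInteger
import Mathlib.GroupTheory.GroupAction.Quotient
import Mathlib.RingTheory.RootsOfUnity.PrimitiveRoots

/-!
# S56, package EU (equivariant `S`-unit theorem mod `p`): definitions

`Δ` a (finite) group, `k` a field, `χ : Δ →* kˣ` a character.

* `EuAct Δ A`        : an action of `Δ` on the additive group `A` by endomorphisms, AS DATA
                       (`Δ →* AddMonoid.End A`; no typeclass, so subgroups / `Additive` cause no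
                       instance problems).
* `euX χ ρ`          : `Hom_Δ(A, k(χ))`, the `k`-space of additive maps `f : A → k` with
                       `f (ρ δ a) = χ δ * f a`.
* `euDim χ ρ`        : its dimension `= d_χ(A/p)` when `char k = p`.
* `euActMul Δ E`     : the action on `Additive E` coming from `[MulDistribMulAction Δ E]`.
* `euActPerm Δ X`    : the permutation action on `X → ℤ`, `(δ φ)(x) = φ (δ⁻¹ x)`.
* `euOrbCount χ X`   : the number of `Δ`-orbits on `X` on whose stabilisers `χ` is trivial.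
* `euOmegaInd T Δ p χ`: `1` if `T ∋ ζ_p` and `χ = ω` (the action on `μ_p`), else `0`.
-/

set_option autoImplicit false

namespace Fermat.Agent.S56

/-- an action of `Δ` on the additive group `A` by endomorphisms, as data -/
abbrev EuAct (Δ : Type*) (A : Type*) [Monoid Δ] [AddCommGroup A] := Δ →* AddMonoid.End A

section Hom

variable {Δ : Type*} [Monoid Δ] {k : Type*} [Field k] {A : Type*} [AddCommGroup A]

/-- `Hom_Δ(A, k(χ))`: additive maps `f : A → k` with `f (δ a) = χ(δ) f(a)`. -/
def euX (χ : Δ →* kˣ) (ρ : EuAct Δ A) : Submodule k (A →+ k) where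
  carrier := {f | ∀ (δ : Δ) (a : A), f (ρ δ a) = (χ δ : k) * f a}
  add_mem' := by
    intro f g hf hg δ a
    simp only [AddMonoidHom.add_apply, hf δ a, hg δ a, mul_add]
  zero_mem' := by
    intro δ a
    simp
  smul_mem' := by
    intro c f hf δ a
    simp only [AddMonoidHom.smul_apply, hf δ a, smul_eq_mul]
    ring

theorem mem_euX {χ : Δ →* kˣ} {ρ : EuAct Δ A} {f : A →+ k} :
    f ∈ euX χ ρ ↔ ∀ (δ : Δ) (a : A), f (ρ δ a) = (χ δ : k) * f a := Iff.rfl

/-- `d_χ(A) = dim_k Hom_Δ(A, k(χ))` -/
noncomputable def euDim (χ : Δ →* kˣ) (ρ : EuAct Δ A) : ℕ := Module.finrank k (euX χ ρ)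

end Hom

section Acts

variable (Δ : Type*) [Group Δ]

/-- the action on `Additive E` coming from `[MulDistribMulAction Δ E]` -/
def euActMul (E : Type*) [CommGroup E] [MulDistribMulAction Δ E] : EuAct Δ (Additive E) :=
  (monoidEndToAdditive E : Monoid.End E →* AddMonoid.End (Additive E)).comp
    (MulDistribMulAction.toMonoidEnd Δ E)

@[simp] theorem euActMul_apply (E : Type*) [CommGroup E] [MulDistribMulAction Δ E] (δ : Δ)
    (a : Additive E) : euActMul Δ E δ a = Additive.ofMul (δ • a.toMul) := rfl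

/-- the permutation action on `X → ℤ`: `(δ φ)(x) = φ (δ⁻¹ x)` -/
def euActPerm (X : Type*) [MulAction Δ X] : EuAct Δ (X → ℤ) where
  toFun δ :=
    { toFun := fun φ x => φ (δ⁻¹ • x)
      map_zero' := rfl
      map_add' := fun _ _ => rfl }
  map_one' := by
    ext φ x
    show φ ((1 : Δ)⁻¹ • x) = φ x
    simp
  map_mul' := by
    intro δ δ'
    ext φ x
    show φ ((δ * δ')⁻¹ • x) = φ (δ'⁻¹ • δ⁻¹ • x)
    rw [mul_inv_rev, mul_smul]

@[simp] theorem euActPerm_apply (X : Type*) [MulAction Δ X] (δ : Δ) (φ : X → ℤ) (x : X) :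
    euActPerm Δ X δ φ x = φ (δ⁻¹ • x) := rfl

end Acts

section Count

variable {Δ : Type*} [Group Δ] {k : Type*} [Field k]

/-- the number of `Δ`-orbits on `X` on whose stabilisers `χ` is trivial -/
noncomputable def euOrbCount (χ : Δ →* kˣ) (X : Type*) [MulAction Δ X] : ℕ :=
  Nat.card {o : MulAction.orbitRel.Quotient Δ X //
    ∀ x : X, (Quotient.mk'' x : MulAction.orbitRel.Quotient Δ X) = o →
      ∀ δ ∈ MulAction.stabilizer Δ x, χ δ = 1}

/-- `1` if `χ = 1`, else `0` -/
noncomputable def euTrivInd {Δ : Type*} [Group Δ] {k : Type*} [Field k] (χ : Δ →* kˣ) : ℕ :=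
  open Classical in if χ = 1 then 1 else 0

/-- `1` if `T` contains a primitive `p`-th root of unity `ζ` and `δ ζ = ζ ^ χ(δ)` for all `δ`
(i.e. `χ = ω`), else `0`. -/
noncomputable def euOmegaInd (T : Type*) [Field T] (Δ : Type*) [Group Δ] [MulSemiringAction Δ T]
    (p : ℕ) (χ : Δ →* kˣ) : ℕ :=
  open Classical in
  if ∃ ζ : T, IsPrimitiveRoot ζ p ∧
      ∀ δ : Δ, ∃ m : ℕ, δ • ζ = ζ ^ m ∧ ((χ δ : kˣ) : k) = (m : k) then 1 else 0

end Count

end Fermat.Agent.S56
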