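import Fermat.Agent.S56.EU.Defs
import Mathlib.Algebra.Module.ZMod
import Mathlib.GroupTheory.Perm.Cycle.Type
import Mathlib.LinearAlgebra.Basis.VectorSpace
import Mathlib.LinearAlgebra.Dimension.Constructions
import Mathlib.LinearAlgebra.Dimension.RankNullity
import Mathlib.LinearAlgebra.FiniteDimensional.Lemmas

/-!
# S56, package EU: the `d_χ` formalism (abstract algebra, sorry-free)

`Δ` a finite group of order prime to `p`, `k` a field of characteristic `p`, `χ : Δ →* kˣ`,
`euX χ ρ = Hom_Δ(A, k(χ))`, `euDim χ ρ = dim_k euX χ ρ` (`= d_χ(A/p)`).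

* `eu_exists_extend` (EXT): `f ∈ Hom_Δ(A, k(χ))` extends along an equivariant `ι : A → B` as soon
  as `f` kills `ι⁻¹(pB)` (extension over `𝔽_p` + averaging).
* `euDim_of_exact` (SES): `0 → A → B → C → 0` equivariant exact, `C` `p`-torsion-free
  `⟹ d(B) = d(A) + d(C)`.
* `euDim_eq_of_mul_p` (α), `euDim_eq_of_coprime_index` (β), `euDim_eq_of_finiteIndex` (FI):
  an equivariant embedding of finite index into a finitely generated `p`-torsion-free group
  induces equal `d_χ`.
* `euDim_prod` (PROD), `euDim_perm` (PERM): `d_χ(ℤ[X]) = euOrbCount χ X`.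
-/

set_option autoImplicit false
set_option linter.style.haveILetI false
set_option linter.unusedSectionVars false
set_option linter.unusedVariables false
set_option linter.unnecessarySeqFocus false

namespace Fermat.Agent.S56

universe u v

section Ext0

/-- extension of additive maps into a group killed by `p`: `f : A → N` extends along `ι : A → B`
as soon as `f` kills `ι⁻¹(pB)`. -/
theorem eu_ext0 {A B N : Type*} [AddCommGroup A] [AddCommGroup B] [AddCommGroup N] (p : ℕ)
    [Fact p.Prime] (hN : ∀ n : N, p • n = 0) (ι : A →+ B) (f : A →+ N)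
    (hker : ∀ a b, ι a = p • b → f a = 0) : ∃ g : B →+ N, ∀ a, g (ι a) = f a := by
  classical
  let P : AddSubgroup B := (nsmulAddMonoidHom p : B →+ B).range
  let q : B →+ B ⧸ P := QuotientAddGroup.mk' P
  have hQ : ∀ x : B ⧸ P, p • x = 0 := by
    intro x
    obtain ⟨b, rfl⟩ := QuotientAddGroup.mk'_surjective P x
    rw [← map_nsmul]
    exact (QuotientAddGroup.eq_zero_iff _).mpr ⟨b, rfl⟩
  let φ : A →+ B ⧸ P := q.comp ι
  let K : AddSubgroup A := φ.ker
  have hKf : K ≤ f.ker := by
    intro a ha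
    have h1 : q (ι a) = 0 := ha
    obtain ⟨b, hb⟩ := (QuotientAddGroup.eq_zero_iff _).mp h1
    exact hker a b hb.symm
  have hA' : ∀ x : A ⧸ K, p • x = 0 := by
    intro x
    obtain ⟨a, rfl⟩ := QuotientAddGroup.mk'_surjective K x
    rw [← map_nsmul]
    refine (QuotientAddGroup.eq_zero_iff _).mpr ?_
    show φ (p • a) = 0
    rw [map_nsmul]
    exact hQ _
  letI : Module (ZMod p) (B ⧸ P) := AddCommGroup.zmodModule hQ
  letI : Module (ZMod p) (A ⧸ K) := AddCommGroup.zmodModule hA'
  letI : Module (ZMod p) N := AddCommGroup.zmodModule hN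
  let ιbar : A ⧸ K →+ B ⧸ P := QuotientAddGroup.kerLift φ
  have hιbar : Function.Injective ιbar := QuotientAddGroup.kerLift_injective φ
  let fbar : A ⧸ K →+ N := QuotientAddGroup.lift K f hKf
  obtain ⟨r, hr⟩ := LinearMap.exists_leftInverse_of_injective
    (AddMonoidHom.toZModLinearMap p ιbar) (LinearMap.ker_eq_bot.mpr hιbar)
  let r' : B ⧸ P →+ A ⧸ K := r.toAddMonoidHom
  refine ⟨(fbar.comp r').comp q, fun a => ?_⟩
  have h2 : r' (ιbar (QuotientAddGroup.mk' K a)) = QuotientAddGroup.mk' K a :=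
    LinearMap.congr_fun hr (QuotientAddGroup.mk' K a)
  have h3 : ιbar (QuotientAddGroup.mk' K a) = q (ι a) := rfl
  show fbar (r' (q (ι a))) = f a
  rw [← h3, h2]
  rfl

end Ext0

section Avg

variable {Δ : Type*} [Group Δ] [Fintype Δ] {k : Type*} [Field k] (χ : Δ →* kˣ)
  {B : Type*} [AddCommGroup B] (ρB : EuAct Δ B)

/-- the averaging operator `g₀ ↦ |Δ|⁻¹ Σ_δ χ(δ)⁻¹ g₀ ∘ δ` -/
noncomputable def euAvg (g₀ : B →+ k) : B →+ k :=
  ((Fintype.card Δ : k)⁻¹) • ∑ δ : Δ, (((χ δ)⁻¹ : kˣ) : k) • g₀.comp (ρB δ)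

theorem euAvg_apply (g₀ : B →+ k) (b : B) :
    euAvg χ ρB g₀ b = (Fintype.card Δ : k)⁻¹ * ∑ δ : Δ, (((χ δ)⁻¹ : kˣ) : k) * g₀ (ρB δ b) := by
  rw [euAvg, AddMonoidHom.smul_apply, AddMonoidHom.finsetSum_apply, smul_eq_mul]
  rfl

theorem euAvg_mem (g₀ : B →+ k) : euAvg χ ρB g₀ ∈ euX χ ρB := by
  intro δ' b
  rw [euAvg_apply, euAvg_apply, mul_left_comm]
  congr 1
  rw [Finset.mul_sum]
  refine Fintype.sum_equiv (Equiv.mulRight δ') _ _ (fun δ => ?_)
  have h1 : ρB δ (ρB δ' b) = ρB (δ * δ') b := by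
    rw [map_mul]; rfl
  have h2 : (χ δ)⁻¹ = χ δ' * (χ (δ * δ'))⁻¹ := by
    rw [χ.map_mul, mul_inv_rev, mul_inv_cancel_left]
  rw [h1, Equiv.coe_mulRight, h2, Units.val_mul, mul_assoc]

end Avg

section Ext

variable {Δ : Type*} [Group Δ] [Fintype Δ] {k : Type*} [Field k] (p : ℕ) [Fact p.Prime] [CharP k p]
  (χ : Δ →* kˣ)

theorem eu_card_ne_zero (hΔ : (Nat.card Δ).Coprime p) : (Fintype.card Δ : k) ≠ 0 := by
  intro h
  rw [CharP.cast_eq_zero_iff k p] at h
  rw [Nat.card_eq_fintype_card] at hΔ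
  exact (Fact.out : p.Prime).one_lt.ne' (Nat.eq_one_of_dvd_coprimes hΔ.symm (dvd_refl p) h |>.symm ▸ rfl)

/-- (EXT) -/
theorem eu_exists_extend (hΔ : (Nat.card Δ).Coprime p) {A B : Type*} [AddCommGroup A]
    [AddCommGroup B] (ρA : EuAct Δ A) (ρB : EuAct Δ B) (ι : A →+ B)
    (hι : ∀ δ a, ι (ρA δ a) = ρB δ (ι a)) {f : A →+ k} (hf : f ∈ euX χ ρA)
    (hker : ∀ a b, ι a = p • b → f a = 0) : ∃ g ∈ euX χ ρB, ∀ a, g (ι a) = f a := by
  obtain ⟨g₀, hg₀⟩ := eu_ext0 p (N := k) (fun n => by
    rw [nsmul_eq_mul, CharP.cast_eq_zero k p, zero_mul]) ι f hker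
  refine ⟨euAvg χ ρB g₀, euAvg_mem χ ρB g₀, fun a => ?_⟩
  rw [euAvg_apply]
  have h1 : ∀ δ : Δ, (((χ δ)⁻¹ : kˣ) : k) * g₀ (ρB δ (ι a)) = f a := by
    intro δ
    rw [← hι, hg₀, hf δ a, ← mul_assoc, ← Units.val_mul, inv_mul_cancel, Units.val_one, one_mul]
  rw [Finset.sum_congr rfl (fun δ _ => h1 δ), Finset.sum_const, Finset.card_univ, nsmul_eq_mul,
    ← mul_assoc, inv_mul_cancel₀ (eu_card_ne_zero p hΔ), one_mul]

end Ext

section Main

variable {Δ : Type*} [Group Δ] [Fintype Δ] {k : Type*} [Field k] (p : ℕ) [Fact p.Prime] [CharP k p]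
  (χ : Δ →* kˣ)

section Res

variable {A B C : Type*} [AddCommGroup A] [AddCommGroup B] [AddCommGroup C]
  {ρA : EuAct Δ A} {ρB : EuAct Δ B} {ρC : EuAct Δ C}

omit [Fintype Δ] in
/-- precomposition with an equivariant map -/
def euRes (ι : A →+ B) (hι : ∀ δ a, ι (ρA δ a) = ρB δ (ι a)) : euX χ ρB →ₗ[k] euX χ ρA where
  toFun g := ⟨g.1.comp ι, fun δ a => by
    rw [AddMonoidHom.comp_apply, AddMonoidHom.comp_apply, hι, g.2 δ (ι a)]⟩
  map_add' _ _ := rfl
  map_smul' _ _ := rfl

omit [Fintype Δ] in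
@[simp] theorem euRes_apply (ι : A →+ B) (hι : ∀ δ a, ι (ρA δ a) = ρB δ (ι a)) (g : euX χ ρB)
    (a : A) : (euRes χ ι hι g).1 a = g.1 (ι a) := rfl

omit [Fintype Δ] in
theorem euRes_injective_of_surjective (π : B →+ C) (hπ : ∀ δ b, π (ρB δ b) = ρC δ (π b))
    (hsurj : Function.Surjective π) : Function.Injective (euRes χ π hπ) := by
  intro g g' h
  apply Subtype.ext
  ext c
  obtain ⟨b, rfl⟩ := hsurj c
  have := congrArg (fun x : euX χ ρB => x.1 b) h
  simpa using this

end Res

section SES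

variable {A B C : Type*} [AddCommGroup A] [AddCommGroup B] [AddCommGroup C]
  (ρA : EuAct Δ A) (ρB : EuAct Δ B) (ρC : EuAct Δ C)

/-- (SES) -/
theorem euDim_of_exact (hΔ : (Nat.card Δ).Coprime p) (ι : A →+ B) (π : B →+ C)
    (hι : ∀ δ a, ι (ρA δ a) = ρB δ (ι a)) (hπ : ∀ δ b, π (ρB δ b) = ρC δ (π b))
    (hinj : Function.Injective ι) (hsurj : Function.Surjective π)
    (hex : ∀ b, π b = 0 ↔ ∃ a, ι a = b) (hC : ∀ c : C, p • c = 0 → c = 0)
    [Module.Finite k (euX χ ρB)] :
    euDim χ ρB = euDim χ ρA + euDim χ ρC := by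
  have hsurjι : Function.Surjective (euRes χ ι hι) := by
    intro f
    obtain ⟨g, hg, hgf⟩ := eu_exists_extend p χ hΔ ρA ρB ι hι f.2 (by
      intro a b hab
      have h1 : p • π b = 0 := by
        rw [← map_nsmul, ← hab]
        exact (hex _).mpr ⟨a, rfl⟩
      obtain ⟨a', ha'⟩ := (hex b).mp (hC _ h1)
      have h2 : a = p • a' := by
        apply hinj
        rw [hab, map_nsmul, ha']
      rw [h2, map_nsmul, nsmul_eq_mul, CharP.cast_eq_zero k p, zero_mul])
    exact ⟨⟨g, hg⟩, Subtype.ext (AddMonoidHom.ext hgf)⟩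
  have hker : LinearMap.ker (euRes χ ι hι) = LinearMap.range (euRes χ π hπ) := by
    ext g
    constructor
    · intro hg
      have hg' : ∀ a, g.1 (ι a) = 0 := fun a =>
        congrArg (fun x : euX χ ρA => x.1 a) (LinearMap.mem_ker.mp hg)
      have hle : π.ker ≤ g.1.ker := by
        intro b hb
        obtain ⟨a, rfl⟩ := (hex b).mp hb
        exact hg' a
      let h : C →+ k := π.liftOfRightInverse (Function.surjInv hsurj)
        (Function.rightInverse_surjInv hsurj) ⟨g.1, hle⟩
      have hh : ∀ b, h (π b) = g.1 b := fun b =>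
        AddMonoidHom.liftOfRightInverse_comp_apply π _ _ ⟨g.1, hle⟩ b
      refine ⟨⟨h, fun δ c => ?_⟩, ?_⟩
      · obtain ⟨b, rfl⟩ := hsurj c
        rw [← hπ, hh, hh, g.2 δ b]
      · apply Subtype.ext
        ext b
        exact hh b
    · rintro ⟨h, rfl⟩
      rw [LinearMap.mem_ker]
      apply Subtype.ext
      ext a
      show h.1 (π (ι a)) = 0
      rw [(hex _).mpr ⟨a, rfl⟩, map_zero]
  have h1 := LinearMap.finrank_range_add_finrank_ker (K := k) (V := euX χ ρB) (V₂ := euX χ ρA)
    (euRes χ ι hι)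
  rw [LinearMap.range_eq_top.mpr hsurjι, finrank_top, hker,
    LinearMap.finrank_range_of_inj (euRes_injective_of_surjective χ π hπ hsurj)] at h1
  exact h1.symm

end SES


section Finite

variable {A : Type*} [AddCommGroup A] (ρA : EuAct Δ A)

omit [Fintype Δ] in
/-- `Hom_Δ(A, k(χ))` is finite-dimensional when `A` is finitely generated -/
theorem eu_finite [Module.Finite ℤ A] : Module.Finite k (euX χ ρA) := by
  obtain ⟨s, hs⟩ := (Module.finite_def (R := ℤ) (M := A)).mp inferInstance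
  let ev : euX χ ρA →ₗ[k] (s → k) :=
    { toFun := fun g a => g.1 a.1
      map_add' := fun _ _ => rfl
      map_smul' := fun _ _ => rfl }
  have hev : Function.Injective ev := by
    intro g g' h
    apply Subtype.ext
    have h1 : (g.1.toIntLinearMap : A →ₗ[ℤ] k) = g'.1.toIntLinearMap := by
      apply LinearMap.ext_on_range (v := fun a : s => (a : A))
      · rw [Subtype.range_coe_subtype]
        simpa using hs
      · intro a
        exact congrFun h a
    ext a
    exact LinearMap.congr_fun h1 a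
  exact Module.Finite.of_injective ev hev

end Finite

section ME

variable {A B : Type*} [AddCommGroup A] [AddCommGroup B] (ρA : EuAct Δ A) (ρB : EuAct Δ B)

/-- (ME) middle exactness for a pair `ι : A → B`, `σ : B → A` with `ι ∘ σ = p`. -/
theorem eu_ker_res_eq_range_res (hΔ : (Nat.card Δ).Coprime p) (ι : A →+ B) (σ : B →+ A)
    (hι : ∀ δ a, ι (ρA δ a) = ρB δ (ι a)) (hσ : ∀ δ b, σ (ρB δ b) = ρA δ (σ b))
    (hinj : Function.Injective ι) (hισ : ∀ b, ι (σ b) = p • b) :
    LinearMap.ker (euRes χ σ hσ) = LinearMap.range (euRes χ ι hι) := by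
  ext g
  constructor
  · intro hg
    have hg' : ∀ b, g.1 (σ b) = 0 := fun b =>
      congrArg (fun x : euX χ ρB => x.1 b) (LinearMap.mem_ker.mp hg)
    obtain ⟨f, hf, hfg⟩ := eu_exists_extend p χ hΔ ρA ρB ι hι g.2 (by
      intro a b hab
      have : a = σ b := hinj (by rw [hab, hισ])
      rw [this, hg'])
    exact ⟨⟨f, hf⟩, Subtype.ext (AddMonoidHom.ext hfg)⟩
  · rintro ⟨f, rfl⟩
    rw [LinearMap.mem_ker]
    apply Subtype.ext
    ext b
    show f.1 (ι (σ b)) = 0
    rw [hισ, map_nsmul, nsmul_eq_mul, CharP.cast_eq_zero k p, zero_mul]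

/-- (α) -/
theorem euDim_eq_of_mul_p (hΔ : (Nat.card Δ).Coprime p) (ι : A →+ B) (σ : B →+ A)
    (hι : ∀ δ a, ι (ρA δ a) = ρB δ (ι a)) (hσ : ∀ δ b, σ (ρB δ b) = ρA δ (σ b))
    (hinjι : Function.Injective ι) (hinjσ : Function.Injective σ)
    (hισ : ∀ b, ι (σ b) = p • b) [Module.Finite k (euX χ ρA)] [Module.Finite k (euX χ ρB)] :
    euDim χ ρA = euDim χ ρB := by
  have hσι : ∀ a, σ (ι a) = p • a := by
    intro a
    apply hinjι
    rw [hισ, map_nsmul]
  have h1 := LinearMap.finrank_range_add_finrank_ker (K := k) (V := euX χ ρA) (V₂ := euX χ ρB)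
    (euRes χ σ hσ)
  have h2 := LinearMap.finrank_range_add_finrank_ker (K := k) (V := euX χ ρB) (V₂ := euX χ ρA)
    (euRes χ ι hι)
  rw [eu_ker_res_eq_range_res p χ ρA ρB hΔ ι σ hι hσ hinjι hισ] at h1
  rw [eu_ker_res_eq_range_res p χ ρB ρA hΔ σ ι hσ hι hinjσ hσι] at h2
  unfold euDim
  omega

/-- (β) -/
theorem euDim_eq_of_coprime_index (hΔ : (Nat.card Δ).Coprime p) (ι : A →+ B)
    (hι : ∀ δ a, ι (ρA δ a) = ρB δ (ι a)) (hinj : Function.Injective ι) (m : ℕ)
    (hm : ¬ p ∣ m) (hmB : ∀ b : B, ∃ a, ι a = m • b) :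
    euDim χ ρA = euDim χ ρB := by
  have hmk : (m : k) ≠ 0 := by
    rwa [Ne, CharP.cast_eq_zero_iff k p]
  have hbij : Function.Bijective (euRes χ ι hι) := by
    constructor
    · intro g g' h
      apply Subtype.ext
      ext b
      obtain ⟨a, ha⟩ := hmB b
      have h1 : g.1 (ι a) = g'.1 (ι a) := congrArg (fun x : euX χ ρA => x.1 a) h
      rw [ha, map_nsmul, map_nsmul, nsmul_eq_mul, nsmul_eq_mul] at h1
      exact mul_left_cancel₀ hmk h1
    · intro f
      obtain ⟨g, hg, hgf⟩ := eu_exists_extend p χ hΔ ρA ρB ι hι f.2 (by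
        intro a b hab
        obtain ⟨a', ha'⟩ := hmB b
        have h1 : m • a = p • a' := by
          apply hinj
          rw [map_nsmul, hab, map_nsmul, ha', smul_comm]
        have h2 : (m : k) * f.1 a = 0 := by
          rw [← nsmul_eq_mul, ← map_nsmul, h1, map_nsmul, nsmul_eq_mul, CharP.cast_eq_zero k p,
            zero_mul]
        exact (mul_eq_zero.mp h2).resolve_left hmk)
      exact ⟨⟨g, hg⟩, Subtype.ext (AddMonoidHom.ext hgf)⟩
  exact (LinearEquiv.finrank_eq (LinearEquiv.ofBijective (euRes χ ι hι) hbij)).symm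

end ME


section Restrict

variable {B : Type*} [AddCommGroup B]

omit [Fintype Δ] in
/-- restriction of an action to a stable subgroup -/
def euActRestrict (ρ : EuAct Δ B) (U : AddSubgroup B) (hU : ∀ δ, ∀ b ∈ U, ρ δ b ∈ U) :
    EuAct Δ U where
  toFun δ := ((ρ δ : B →+ B).comp U.subtype).codRestrict U (fun u => hU δ u u.2)
  map_one' := by
    ext u
    show ρ 1 (u : B) = u
    rw [map_one]; rfl
  map_mul' δ δ' := by
    ext u
    show ρ (δ * δ') (u : B) = ρ δ (ρ δ' (u : B))
    rw [map_mul]; rfl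

omit [Fintype Δ] in
@[simp] theorem euActRestrict_coe (ρ : EuAct Δ B) (U : AddSubgroup B)
    (hU : ∀ δ, ∀ b ∈ U, ρ δ b ∈ U) (δ : Δ) (u : U) :
    ((euActRestrict ρ U hU δ u : U) : B) = ρ δ (u : B) := rfl

end Restrict


section FI

/-- a finite abelian group on which `p` is surjective has order prime to `p` -/
theorem eu_not_dvd_card_of_surjective {C : Type*} [AddCommGroup C] [Finite C]
    (h : ∀ c : C, ∃ c', p • c' = c) : ¬ p ∣ Nat.card C := by
  intro hp
  obtain ⟨x, hx⟩ := exists_prime_addOrderOf_dvd_card' (G := C) p hp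
  have hinj : Function.Injective (fun c : C => p • c) :=
    Finite.injective_iff_surjective.mpr h
  have h0 : x = 0 := by
    apply hinj
    show p • x = p • (0 : C)
    rw [smul_zero, ← hx, addOrderOf_nsmul_eq_zero]
  rw [h0, addOrderOf_zero] at hx
  exact (Fact.out : p.Prime).one_lt.ne hx

theorem euDim_eq_of_finiteIndex_aux (hΔ : (Nat.card Δ).Coprime p) :
    ∀ n : ℕ, ∀ (A : Type u) (B : Type v) [AddCommGroup A] [AddCommGroup B] [Module.Finite ℤ B]
      (ρA : EuAct Δ A) (ρB : EuAct Δ B) (ι : A →+ B),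
      (∀ δ a, ι (ρA δ a) = ρB δ (ι a)) → Function.Injective ι →
      (∀ b : B, p • b = 0 → b = 0) → ι.range.index = n → n ≠ 0 →
      euDim χ ρA = euDim χ ρB := by
  intro n
  induction n using Nat.strong_induction_on with
  | _ n ih =>
  intro A B _ _ _ ρA ρB ι hι hinj hB hn hn0
  by_cases hpn : p ∣ n
  · -- the intermediate lattice `W = ι A + p B`
    let P : AddSubgroup B := (nsmulAddMonoidHom p : B →+ B).range
    let W : AddSubgroup B := ι.range ⊔ P
    have hWst : ∀ δ, ∀ b ∈ W, ρB δ b ∈ W := by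
      intro δ b hb
      obtain ⟨y, ⟨a, rfl⟩, z, ⟨b', rfl⟩, rfl⟩ := AddSubgroup.mem_sup.mp hb
      rw [map_add]
      refine AddSubgroup.add_mem _ (AddSubgroup.mem_sup_left ⟨ρA δ a, hι δ a⟩)
        (AddSubgroup.mem_sup_right ⟨ρB δ b', ?_⟩)
      show p • ρB δ b' = ρB δ (p • b')
      rw [map_nsmul]
    let ρW : EuAct Δ W := euActRestrict ρB W hWst
    let ι' : A →+ W := ι.codRestrict W (fun a => AddSubgroup.mem_sup_left ⟨a, rfl⟩)
    let σ : B →+ W := (nsmulAddMonoidHom p : B →+ B).codRestrict W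
      (fun b => AddSubgroup.mem_sup_right ⟨b, rfl⟩)
    have hle : ι.range ≤ W := le_sup_left
    have hmul := AddSubgroup.relIndex_mul_index hle
    rw [hn] at hmul
    have hrange : ι'.range = ι.range.addSubgroupOf W := by
      ext x
      constructor
      · rintro ⟨a, rfl⟩
        exact ⟨a, rfl⟩
      · rintro ⟨a, ha⟩
        exact ⟨a, Subtype.ext ha⟩
    have hidx : ι'.range.index = ι.range.relIndex W := by
      rw [hrange]; rfl
    have hW1 : W.index ≠ 1 := by
      intro h1
      have hWtop : W = ⊤ := AddSubgroup.index_eq_one.mp h1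
      haveI : ι.range.FiniteIndex := ⟨by rw [hn]; exact hn0⟩
      haveI : Finite (B ⧸ ι.range) := AddSubgroup.finite_quotient_of_finiteIndex
      have hsurj : ∀ c : B ⧸ ι.range, ∃ c', p • c' = c := by
        intro c
        obtain ⟨b, rfl⟩ := QuotientAddGroup.mk_surjective c
        have hb : b ∈ W := hWtop ▸ AddSubgroup.mem_top b
        obtain ⟨y, hy, z, ⟨b', rfl⟩, rfl⟩ := AddSubgroup.mem_sup.mp hb
        refine ⟨QuotientAddGroup.mk b', ?_⟩
        rw [QuotientAddGroup.mk_add, (QuotientAddGroup.eq_zero_iff y).mpr hy, zero_add]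
        rfl
      apply eu_not_dvd_card_of_surjective p hsurj
      rw [← AddSubgroup.index_eq_card, hn]
      exact hpn
    have hW0 : W.index ≠ 0 := by
      intro h0
      rw [h0, mul_zero] at hmul
      exact hn0 hmul.symm
    have hrel0 : ι.range.relIndex W ≠ 0 := by
      intro h0
      rw [h0, zero_mul] at hmul
      exact hn0 hmul.symm
    have hrel_lt : ι.range.relIndex W < n := by
      have h2 : 2 ≤ W.index := by omega
      have hpos : 0 < ι.range.relIndex W := Nat.pos_of_ne_zero hrel0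
      nlinarith
    haveI : Module.Finite ℤ W :=
      Module.Finite.of_injective (W.subtype.toIntLinearMap) Subtype.val_injective
    have hWtf : ∀ w : W, p • w = 0 → w = 0 := by
      intro w hw
      apply Subtype.ext
      apply hB
      have := congrArg Subtype.val hw
      simpa using this
    have step1 : euDim χ ρA = euDim χ ρW :=
      ih _ hrel_lt A W ρA ρW ι' (fun δ a => Subtype.ext (hι δ a))
        (fun a a' h => hinj (congrArg Subtype.val h)) hWtf hidx hrel0
    haveI := eu_finite χ ρW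
    haveI := eu_finite χ ρB
    have step2 : euDim χ ρW = euDim χ ρB :=
      euDim_eq_of_mul_p p χ ρW ρB hΔ W.subtype σ (fun δ w => rfl)
        (fun δ b => Subtype.ext (by
          show p • ρB δ b = ρB δ (p • b)
          rw [map_nsmul]))
        Subtype.val_injective
        (fun b b' h => by
          have h1 : p • b = p • b' := congrArg Subtype.val h
          have h2 : p • (b - b') = 0 := by rw [smul_sub, h1, sub_self]
          exact sub_eq_zero.mp (hB _ h2))
        (fun b => rfl)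
    exact step1.trans step2
  · refine euDim_eq_of_coprime_index p χ ρA ρB hΔ ι hι hinj n hpn (fun b => ?_)
    have := AddSubgroup.nsmul_index_mem ι.range b
    rw [hn] at this
    exact this

/-- (FI) an equivariant embedding of finite index into a `p`-torsion-free finitely generated
group induces equal `d_χ`. -/
theorem euDim_eq_of_finiteIndex (hΔ : (Nat.card Δ).Coprime p) {A : Type u} {B : Type v}
    [AddCommGroup A] [AddCommGroup B] [Module.Finite ℤ B] (ρA : EuAct Δ A) (ρB : EuAct Δ B)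
    (ι : A →+ B) (hι : ∀ δ a, ι (ρA δ a) = ρB δ (ι a)) (hinj : Function.Injective ι)
    (hB : ∀ b : B, p • b = 0 → b = 0) (hfi : ι.range.index ≠ 0) :
    euDim χ ρA = euDim χ ρB :=
  euDim_eq_of_finiteIndex_aux p χ hΔ _ A B ρA ρB ι hι hinj hB rfl hfi

end FI


end Main

section Main2

variable {Δ : Type*} [Group Δ] {k : Type*} [Field k] (χ : Δ →* kˣ)

section Prod

variable {A B : Type*} [AddCommGroup A] [AddCommGroup B] (ρA : EuAct Δ A) (ρB : EuAct Δ B)

/-- the product action -/
def euActProd : EuAct Δ (A × B) where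
  toFun δ := (ρA δ : A →+ A).prodMap (ρB δ : B →+ B)
  map_one' := by
    ext x <;> simp <;> rfl
  map_mul' δ δ' := by
    ext x <;> simp <;> rfl

@[simp] theorem euActProd_apply (δ : Δ) (x : A × B) :
    euActProd ρA ρB δ x = (ρA δ x.1, ρB δ x.2) := rfl

/-- `Hom_Δ(A × B, k(χ)) = Hom_Δ(A, k(χ)) × Hom_Δ(B, k(χ))` -/
def euXProdEquiv : euX χ (euActProd ρA ρB) ≃ₗ[k] (euX χ ρA × euX χ ρB) where
  toFun g := (⟨g.1.comp (AddMonoidHom.inl A B), fun δ a => by
      have := g.2 δ (a, 0)
      simpa using this⟩,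
    ⟨g.1.comp (AddMonoidHom.inr A B), fun δ b => by
      have := g.2 δ (0, b)
      simpa using this⟩)
  map_add' _ _ := rfl
  map_smul' _ _ := rfl
  invFun f := ⟨f.1.1.coprod f.2.1, fun δ x => by
    rw [euActProd_apply, AddMonoidHom.coprod_apply, AddMonoidHom.coprod_apply, f.1.2 δ x.1,
      f.2.2 δ x.2, mul_add]⟩
  left_inv g := by
    apply Subtype.ext
    ext x <;> simp
  right_inv f := by
    apply Prod.ext <;> apply Subtype.ext <;> ext x <;> simp

theorem euDim_prod [Module.Finite k (euX χ ρA)] [Module.Finite k (euX χ ρB)] :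
    euDim χ (euActProd ρA ρB) = euDim χ ρA + euDim χ ρB := by
  unfold euDim
  rw [LinearEquiv.finrank_eq (euXProdEquiv χ ρA ρB)]
  haveI : Module.Free k (euX χ ρA) := Module.Free.of_divisionRing k (euX χ ρA)
  haveI : Module.Free k (euX χ ρB) := Module.Free.of_divisionRing k (euX χ ρB)
  exact Module.finrank_prod (R := k) (M := euX χ ρA) (M' := euX χ ρB)

end Prod


section Perm

variable (X : Type*) [MulAction Δ X]

/-- `χ`-equivariant functions `c : X → k`: `c (δ x) = χ(δ) c(x)` -/
def euY : Submodule k (X → k) where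
  carrier := {c | ∀ (δ : Δ) (x : X), c (δ • x) = (χ δ : k) * c x}
  add_mem' := by
    intro c c' hc hc' δ x
    simp only [Pi.add_apply, hc δ x, hc' δ x, mul_add]
  zero_mem' := by
    intro δ x
    simp
  smul_mem' := by
    intro a c hc δ x
    simp only [Pi.smul_apply, hc δ x, smul_eq_mul]
    ring

/-- the good orbits: `χ` is trivial on the stabilisers -/
def EuGood : Type _ := {o : MulAction.orbitRel.Quotient Δ X //
    ∀ x : X, (Quotient.mk'' x : MulAction.orbitRel.Quotient Δ X) = o →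
      ∀ δ ∈ MulAction.stabilizer Δ x, χ δ = 1}

theorem euOrbCount_eq : euOrbCount χ X = Nat.card (EuGood χ X) := rfl

variable {X}

/-- an element of `Δ` carrying the representative of the orbit of `x` to `x` -/
theorem eu_exists_smul_out (x : X) :
    ∃ δ : Δ, δ • (Quotient.mk'' x : MulAction.orbitRel.Quotient Δ X).out = x := by
  have h : (Quotient.mk'' (Quotient.mk'' x : MulAction.orbitRel.Quotient Δ X).out :
      MulAction.orbitRel.Quotient Δ X) = Quotient.mk'' x := Quotient.out_eq _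
  have h2 := Quotient.exact h
  -- `out ≈ x` means `out ∈ orbit x`
  have h3 : (Quotient.mk'' x : MulAction.orbitRel.Quotient Δ X).out ∈ MulAction.orbit Δ x := h2
  obtain ⟨δ, hδ⟩ := h3
  refine ⟨δ⁻¹, ?_⟩
  rw [← hδ, inv_smul_smul]

noncomputable def euG (x : X) : Δ := Classical.choose (eu_exists_smul_out (Δ := Δ) x)

theorem euG_spec (x : X) :
    (euG x : Δ) • (Quotient.mk'' x : MulAction.orbitRel.Quotient Δ X).out = x :=
  Classical.choose_spec (eu_exists_smul_out (Δ := Δ) x)

variable (X)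

/-- evaluation at the orbit representatives -/
noncomputable def euYEval : euY χ X →ₗ[k] (EuGood χ X → k) where
  toFun c o := c.1 o.1.out
  map_add' _ _ := rfl
  map_smul' _ _ := rfl

theorem euYEval_injective : Function.Injective (euYEval χ X) := by
  intro c c' h
  apply Subtype.ext
  funext x
  -- reduce to `d = c - c'`
  have hd : ∀ o : EuGood χ X, c.1 o.1.out = c'.1 o.1.out := fun o => congrFun h o
  by_cases hg : ∀ x' : X, (Quotient.mk'' x' : MulAction.orbitRel.Quotient Δ X) = Quotient.mk'' x →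
      ∀ δ ∈ MulAction.stabilizer Δ x', χ δ = 1
  · have h1 := hd ⟨Quotient.mk'' x, hg⟩
    have h2 := euG_spec (Δ := Δ) x
    rw [← h2, c.2, c'.2]
    show _ * c.1 (Quotient.mk'' x : MulAction.orbitRel.Quotient Δ X).out = _
    rw [h1]
  · push Not at hg
    obtain ⟨x', hx', δ, hδ, hχ⟩ := hg
    have hz : ∀ d : euY χ X, d.1 x' = 0 := by
      intro d
      have h1 := d.2 δ x'
      rw [MulAction.mem_stabilizer_iff.mp hδ] at h1
      have h2 : ((χ δ : k) - 1) * d.1 x' = 0 := by
        rw [sub_mul, one_mul, ← h1, sub_self]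
      rcases mul_eq_zero.mp h2 with h3 | h3
      · exfalso
        apply hχ
        apply Units.ext
        rw [Units.val_one]
        exact sub_eq_zero.mp h3
      · exact h3
    have h2 : x ∈ MulAction.orbit Δ x' := by
      have h3 : x' ∈ MulAction.orbit Δ x := Quotient.exact hx'
      obtain ⟨δ'', hδ''⟩ := h3
      have hδ3 : δ'' • x = x' := hδ''
      exact ⟨δ''⁻¹, by
        show δ''⁻¹ • x' = x
        rw [← hδ3, inv_smul_smul]⟩
    obtain ⟨δ', rfl⟩ := h2
    show c.1 (δ' • x') = c'.1 (δ' • x')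
    rw [c.2, c'.2, hz c, hz c']

theorem euYEval_surjective : Function.Surjective (euYEval χ X) := by
  classical
  intro a
  let a' : MulAction.orbitRel.Quotient Δ X → k := fun o =>
    if h : (∀ x : X, (Quotient.mk'' x : MulAction.orbitRel.Quotient Δ X) = o →
      ∀ δ ∈ MulAction.stabilizer Δ x, χ δ = 1) then a ⟨o, h⟩ else 0
  have hmk : ∀ (δ : Δ) (x : X), (Quotient.mk'' (δ • x) : MulAction.orbitRel.Quotient Δ X) =
      Quotient.mk'' x := by
    intro δ x
    apply Quotient.sound
    exact MulAction.orbitRel_apply.mpr ⟨δ, rfl⟩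
  refine ⟨⟨fun x => (χ (euG x) : k) * a' (Quotient.mk'' x), fun δ x => ?_⟩, ?_⟩
  · show (χ (euG (δ • x)) : k) * a' (Quotient.mk'' (δ • x)) =
      (χ δ : k) * ((χ (euG x) : k) * a' (Quotient.mk'' x))
    rw [hmk δ x]
    by_cases hg : ∀ x' : X, (Quotient.mk'' x' : MulAction.orbitRel.Quotient Δ X) = Quotient.mk'' x →
        ∀ δ ∈ MulAction.stabilizer Δ x', χ δ = 1
    · have h1 := euG_spec (Δ := Δ) (δ • x)
      have h2 := euG_spec (Δ := Δ) x
      rw [hmk δ x] at h1
      have h3 : ((δ * euG x)⁻¹ * euG (δ • x)) ∈ MulAction.stabilizer Δ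
          (Quotient.mk'' x : MulAction.orbitRel.Quotient Δ X).out := by
        rw [MulAction.mem_stabilizer_iff, mul_smul, h1, inv_smul_eq_iff, mul_smul, h2]
      have h4 := hg _ (Quotient.out_eq _) _ h3
      have h5 : χ (euG (δ • x)) = χ δ * χ (euG x) := by
        rw [map_mul, map_inv, inv_mul_eq_one] at h4
        rw [← map_mul]
        exact h4.symm
      rw [h5, Units.val_mul, mul_assoc]
    · have : a' (Quotient.mk'' x) = 0 := dif_neg hg
      rw [this, mul_zero, mul_zero, mul_zero]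
  · funext o
    show (χ (euG o.1.out) : k) * a' (Quotient.mk'' o.1.out) = a o
    have ho : (Quotient.mk'' o.1.out : MulAction.orbitRel.Quotient Δ X) = o.1 := Quotient.out_eq _
    have h1 := euG_spec (Δ := Δ) o.1.out
    rw [ho] at h1
    have h2 : χ (euG o.1.out) = 1 := o.2 _ ho _ (MulAction.mem_stabilizer_iff.mpr h1)
    rw [h2, Units.val_one, one_mul, ho]
    show (if h : _ then a ⟨o.1, h⟩ else 0) = a o
    rw [dif_pos o.2]
    rfl



variable {X}

theorem euActPerm_single [DecidableEq X] (δ : Δ) (x : X) :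
    euActPerm Δ X δ (Pi.single x 1) = Pi.single (δ • x) 1 := by
  funext y
  rw [euActPerm_apply, Pi.single_apply, Pi.single_apply]
  congr 1
  rw [eq_iff_iff, inv_smul_eq_iff]

variable (X) [Fintype X] [DecidableEq X]

/-- the additive map `φ ↦ Σ_x c(x) φ(x)` -/
noncomputable def euPermHom (c : X → k) : (X → ℤ) →+ k :=
  ∑ x : X, (c x) • ((Int.castAddHom k).comp (Pi.evalAddMonoidHom (fun _ : X => ℤ) x))

theorem euPermHom_apply (c : X → k) (φ : X → ℤ) :
    euPermHom X c φ = ∑ x : X, c x * (φ x : k) := by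
  rw [euPermHom, AddMonoidHom.finsetSum_apply]
  rfl

theorem eu_perm_expand {N : Type*} [AddCommGroup N] (f : (X → ℤ) →+ N) (φ : X → ℤ) :
    f φ = ∑ x : X, φ x • f (Pi.single x 1) := by
  conv_lhs => rw [pi_eq_sum_univ φ]
  rw [map_sum]
  refine Finset.sum_congr rfl (fun x _ => ?_)
  rw [map_zsmul]
  congr 2
  funext y
  simp [Pi.single_apply, eq_comm]

/-- `Hom_Δ(ℤ[X], k(χ)) ≃ {χ-equivariant functions on X}` -/
noncomputable def euXPermEquiv : euX χ (euActPerm Δ X) ≃ₗ[k] euY χ X where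
  toFun f := ⟨fun x => f.1 (Pi.single x 1), fun δ x => by
    show f.1 (Pi.single (δ • x) 1) = _
    rw [← euActPerm_single, f.2 δ]⟩
  map_add' _ _ := rfl
  map_smul' _ _ := rfl
  invFun c := ⟨euPermHom X c.1, fun δ φ => by
    rw [euPermHom_apply, euPermHom_apply, Finset.mul_sum]
    refine (Fintype.sum_equiv (MulAction.toPerm δ) _ _ (fun x => ?_)).symm
    rw [MulAction.toPerm_apply, euActPerm_apply, inv_smul_smul, c.2 δ x, mul_assoc]⟩
  left_inv f := by
    apply Subtype.ext
    refine AddMonoidHom.ext (fun φ => ?_)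
    show euPermHom X (fun x => f.1 (Pi.single x 1)) φ = f.1 φ
    rw [euPermHom_apply, eu_perm_expand X f.1 φ]
    refine Finset.sum_congr rfl (fun x _ => ?_)
    rw [zsmul_eq_mul, mul_comm]
  right_inv c := by
    apply Subtype.ext
    funext x
    show euPermHom X c.1 (Pi.single x 1) = c.1 x
    rw [euPermHom_apply, Finset.sum_eq_single x]
    · simp
    · intro y _ hy
      rw [Pi.single_apply, if_neg hy]
      simp
    · intro h
      exact absurd (Finset.mem_univ x) h



/-- (PERM) `d_χ(ℤ[X]) = #{orbits with χ trivial on the stabiliser}` -/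
theorem euDim_perm_fintype : euDim χ (euActPerm Δ X) = euOrbCount χ X := by
  have e1 := euXPermEquiv χ X
  have e2 := LinearEquiv.ofBijective (euYEval χ X) ⟨euYEval_injective χ X, euYEval_surjective χ X⟩
  unfold euDim
  rw [LinearEquiv.finrank_eq (e1.trans e2), euOrbCount_eq]
  haveI : Finite (EuGood χ X) := by
    unfold EuGood
    infer_instance
  haveI := Fintype.ofFinite (EuGood χ X)
  rw [Module.finrank_fintype_fun_eq_card, Nat.card_eq_fintype_card]

end Perm

/-- (PERM) `d_χ(ℤ[X]) = #{orbits with χ trivial on the stabiliser}` -/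
theorem euDim_perm (X : Type*) [MulAction Δ X] [Finite X] :
    euDim χ (euActPerm Δ X) = euOrbCount χ X := by
  classical
  haveI := Fintype.ofFinite X
  exact euDim_perm_fintype χ X

end Main2

end Fermat.Agent.S56
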