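import Fermat.Agent.S56.EU.Units
import Mathlib.RingTheory.RootsOfUnity.Minpoly

/-!
# S56, package EU: the torsion part `d_χ(μ(T)/p) = [ζ_p ∈ T ∧ χ = ω]`
-/

set_option autoImplicit false
set_option linter.unusedSectionVars false
set_option linter.style.haveILetI false

open NumberField NumberField.Units
namespace Fermat.Agent.S56

section Torsion

variable {T : Type*} [Field T] [NumberField T] {Δ : Type*} [Group Δ] [Fintype Δ]
  [MulSemiringAction Δ T]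

attribute [local instance] Units.mulDistribMulActionRight

variable (T) in
/-- the torsion units form a cyclic group: a generator -/
theorem euTors_exists_generator : ∃ ξ : euTors T, ∀ t : euTors T, ∃ j : ℤ, j • ξ = t := by
  obtain ⟨g, hg⟩ := IsCyclic.exists_generator (α := torsion T)
  refine ⟨⟨Additive.ofMul g.1, g.2⟩, fun t => ?_⟩
  obtain ⟨j, hj⟩ := Subgroup.mem_zpowers_iff.mp (hg ⟨t.1.toMul, t.2⟩)
  refine ⟨j, Subtype.ext ?_⟩
  have h1 : (g.1 : (𝓞 T)ˣ) ^ j = t.1.toMul := by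
    have := congrArg Subtype.val hj
    simpa using this
  show j • Additive.ofMul (g.1 : (𝓞 T)ˣ) = t.1
  rw [← ofMul_zpow, h1]
  rfl

instance euTors_finite : Finite (euTors T) := (inferInstance : Finite (torsion T))

theorem euTors_coe_nsmul (m : ℕ) (t : euTors T) :
    ((((m • t : euTors T) : Additive (𝓞 T)ˣ).toMul : (𝓞 T)ˣ) : T) =
      (((t : Additive (𝓞 T)ˣ).toMul : (𝓞 T)ˣ) : T) ^ m := by
  show ((((m • (t : Additive (𝓞 T)ˣ)).toMul : (𝓞 T)ˣ)) : T) = _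
  rw [toMul_nsmul, Units.coe_pow]

theorem euActTors_coe (δ : Δ) (t : euTors T) :
    ((((euActTors T Δ δ t : euTors T) : Additive (𝓞 T)ˣ).toMul : (𝓞 T)ˣ) : T) =
      δ • (((t : Additive (𝓞 T)ˣ).toMul : (𝓞 T)ˣ) : T) := rfl

theorem euTors_coe_injective : Function.Injective
    (fun t : euTors T => (((t : Additive (𝓞 T)ˣ).toMul : (𝓞 T)ˣ) : T)) := by
  intro t t' h
  apply Subtype.ext
  have h1 : ((t : Additive (𝓞 T)ˣ).toMul : (𝓞 T)ˣ) = (t' : Additive (𝓞 T)ˣ).toMul :=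
    Units.coe_injective T h
  exact h1

/-- `δ` acts on the cyclic group `μ(T)` by a power map -/
theorem euActTors_eq_nsmul (δ : Δ) : ∃ m : ℕ, ∀ t : euTors T, euActTors T Δ δ t = m • t := by
  obtain ⟨ξ, hξ⟩ := euTors_exists_generator T
  obtain ⟨j, hj⟩ := hξ (euActTors T Δ δ ξ)
  have hn : 0 < addOrderOf ξ := addOrderOf_pos ξ
  have hj' : (j % (addOrderOf ξ : ℤ)) • ξ = j • ξ := by
    have h1 : ((addOrderOf ξ : ℤ) * (j / (addOrderOf ξ : ℤ))) • ξ = 0 := by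
      rw [mul_comm, mul_zsmul, natCast_zsmul, addOrderOf_nsmul_eq_zero, zsmul_zero]
    have h2 : j % (addOrderOf ξ : ℤ) = j - (addOrderOf ξ : ℤ) * (j / (addOrderOf ξ : ℤ)) := by
      rw [Int.emod_def]
    rw [h2, sub_zsmul, h1]
    simp
  have hnn : 0 ≤ j % (addOrderOf ξ : ℤ) := Int.emod_nonneg _ (by exact_mod_cast hn.ne')
  refine ⟨(j % (addOrderOf ξ : ℤ)).toNat, fun t => ?_⟩
  obtain ⟨i, rfl⟩ := hξ t
  have h3 : ((j % (addOrderOf ξ : ℤ)).toNat : ℤ) = j % (addOrderOf ξ : ℤ) := Int.toNat_of_nonneg hnn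
  rw [map_zsmul, ← hj, ← hj', ← natCast_zsmul, h3, smul_comm]

variable (p : ℕ) [Fact p.Prime]

/-- a primitive `p`-th root of unity of `T` is a torsion unit -/
theorem euTors_of_primitiveRoot (ζ : T) (hζ : IsPrimitiveRoot ζ p) :
    ∃ t : euTors T, (((t : Additive (𝓞 T)ˣ).toMul : (𝓞 T)ˣ) : T) = ζ := by
  have hint : IsIntegral ℤ ζ := hζ.isIntegral (Fact.out : p.Prime).pos
  let z : 𝓞 T := ⟨ζ, hint⟩
  have hz : (z : T) = ζ := rfl
  have hzp : z * z ^ (p - 1) = 1 := by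
    apply RingOfIntegers.ext
    show (z : T) * (z : T) ^ (p - 1) = 1
    rw [hz, ← pow_succ', Nat.sub_add_cancel (Fact.out : p.Prime).pos, hζ.pow_eq_one]
  let u : (𝓞 T)ˣ := Units.mkOfMulEqOne z (z ^ (p - 1)) hzp
  have h2 : ((u : (𝓞 T)ˣ) : T) = ζ := rfl
  have h3 : u ^ p = 1 := by
    have h4 : ((u ^ p : (𝓞 T)ˣ) : T) = ((1 : (𝓞 T)ˣ) : T) := by
      rw [Units.coe_pow, h2, hζ.pow_eq_one]
      rfl
    exact Units.coe_injective T h4
  refine ⟨⟨Additive.ofMul u, ?_⟩, h2⟩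
  show u ∈ torsion T
  exact (CommGroup.mem_torsion _).mpr
    (isOfFinOrder_iff_pow_eq_one.mpr ⟨p, (Fact.out : p.Prime).pos, h3⟩)

section Main

variable {k : Type*} [Field k] [CharP k p] (χ : Δ →* kˣ)

/-- evaluation at a generator -/
def euTorsEv (ξ : euTors T) : euX χ (euActTors T Δ) →ₗ[k] k where
  toFun f := f.1 ξ
  map_add' _ _ := rfl
  map_smul' _ _ := rfl

theorem euTorsEv_injective (ξ : euTors T) (hξ : ∀ t : euTors T, ∃ j : ℤ, j • ξ = t) :
    Function.Injective (euTorsEv χ ξ) := by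
  intro f g h
  apply Subtype.ext
  ext t
  obtain ⟨j, rfl⟩ := hξ t
  have h1 : f.1 ξ = g.1 ξ := h
  rw [map_zsmul, map_zsmul, h1]

/-- the `ω`-condition of `euOmegaInd` -/
def EuOmegaCond (T : Type*) [Field T] (Δ : Type*) [Group Δ] [MulSemiringAction Δ T] (p : ℕ)
    {k : Type*} [Field k] (χ : Δ →* kˣ) : Prop :=
  ∃ ζ : T, IsPrimitiveRoot ζ p ∧
    ∀ δ : Δ, ∃ m : ℕ, δ • ζ = ζ ^ m ∧ ((χ δ : kˣ) : k) = (m : k)

theorem euOmegaInd_eq (T : Type*) [Field T] (Δ : Type*) [Group Δ] [MulSemiringAction Δ T]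
    (p : ℕ) {k : Type*} [Field k] (χ : Δ →* kˣ) :
    euOmegaInd T Δ p χ = open Classical in if EuOmegaCond T Δ p χ then 1 else 0 := rfl

/-- a nonzero element of `Hom_Δ(μ(T), k(χ))` forces the `ω`-condition -/
theorem euOmegaCond_of_ne_zero (f : euX χ (euActTors T Δ)) (hf : f ≠ 0) :
    EuOmegaCond T Δ p χ := by
  obtain ⟨ξ, hξ⟩ := euTors_exists_generator T
  have hfξ : f.1 ξ ≠ 0 := by
    intro h0
    apply hf
    apply euTorsEv_injective χ ξ hξ
    show f.1 ξ = (0 : euX χ (euActTors T Δ)).1 ξ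
    rw [h0]
    rfl
  set n := addOrderOf ξ with hn
  have hnpos : 0 < n := addOrderOf_pos ξ
  -- `p ∣ n`
  have hpn : p ∣ n := by
    have h1 : (n : k) * f.1 ξ = 0 := by
      rw [← nsmul_eq_mul, ← map_nsmul, hn, addOrderOf_nsmul_eq_zero, map_zero]
    have h2 : (n : k) = 0 := (mul_eq_zero.mp h1).resolve_right hfξ
    exact (CharP.cast_eq_zero_iff k p n).mp h2
  obtain ⟨d, hd⟩ := hpn
  have hdpos : 0 < d := by
    rcases Nat.eq_zero_or_pos d with h | h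
    · rw [h, mul_zero] at hd
      omega
    · exact h
  -- the element `t₀ = d • ξ` of order `p`
  set t₀ : euTors T := d • ξ with ht₀
  set ζ : T := (((t₀ : Additive (𝓞 T)ˣ).toMul : (𝓞 T)ˣ) : T) with hζdef
  have hord : addOrderOf t₀ = p := by
    rw [ht₀, addOrderOf_nsmul, ← hn, hd, Nat.gcd_mul_left_left, Nat.mul_div_cancel _ hdpos]
  have hζ : IsPrimitiveRoot ζ p := by
    rw [hζdef, IsPrimitiveRoot.coe_coe_iff]
    have h1 : orderOf ((t₀ : Additive (𝓞 T)ˣ).toMul : (𝓞 T)ˣ) = p := by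
      rw [← hord]
      have h2 : addOrderOf (t₀ : Additive (𝓞 T)ˣ) = addOrderOf t₀ :=
        AddSubgroup.addOrderOf_coe t₀
      rw [← h2]
      rfl
    rw [← h1]
    exact IsPrimitiveRoot.orderOf _
  refine ⟨ζ, hζ, fun δ => ?_⟩
  obtain ⟨m, hm⟩ := euActTors_eq_nsmul (T := T) δ
  refine ⟨m, ?_, ?_⟩
  · have h1 := euActTors_coe δ t₀
    rw [hm t₀, euTors_coe_nsmul] at h1
    exact h1.symm
  · have h1 := f.2 δ ξ
    rw [hm ξ, map_nsmul, nsmul_eq_mul] at h1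
    exact (mul_right_cancel₀ hfξ h1).symm

/-- under the `ω`-condition there is an `f ∈ Hom_Δ(μ(T), k(χ))` with `f ξ = 1` -/
theorem eu_exists_of_omegaCond (h : EuOmegaCond T Δ p χ) (ξ : euTors T)
    (hξ : ∀ t : euTors T, ∃ j : ℤ, j • ξ = t) :
    ∃ f : euX χ (euActTors T Δ), f.1 ξ = 1 := by
  obtain ⟨ζ, hζ, hm⟩ := h
  obtain ⟨t₀, ht₀⟩ := euTors_of_primitiveRoot p ζ hζ
  -- `p ∣ addOrderOf ξ`
  have hpn : (p : ℤ) ∣ (addOrderOf ξ : ℤ) := by
    have h1 : addOrderOf ξ • t₀ = 0 := by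
      obtain ⟨j, rfl⟩ := hξ t₀
      rw [smul_comm, addOrderOf_nsmul_eq_zero, smul_zero]
    have h2 := euTors_coe_nsmul (addOrderOf ξ) t₀
    rw [h1, ht₀] at h2
    have h3 : ζ ^ addOrderOf ξ = 1 := by
      rw [← h2]
      rfl
    exact_mod_cast hζ.dvd_of_pow_eq_one _ h3
  -- the surjection `ℤ → μ(T)`, `j ↦ j • ξ`
  let π : ℤ →+ euTors T := zmultiplesHom (euTors T) ξ
  have hπ : Function.Surjective π := fun t => hξ t
  have hker : π.ker ≤ (Int.castAddHom k).ker := by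
    intro j hj
    have h1 : j • ξ = 0 := hj
    have h2 := addOrderOf_dvd_iff_zsmul_eq_zero.mpr h1
    obtain ⟨c, hc⟩ := hpn.trans h2
    show ((j : ℤ) : k) = 0
    rw [hc, Int.cast_mul, Int.cast_natCast, CharP.cast_eq_zero k p, zero_mul]
  let f₀ : euTors T →+ k := AddMonoidHom.liftOfSurjective π hπ ⟨Int.castAddHom k, hker⟩
  have hf₀ : ∀ j : ℤ, f₀ (j • ξ) = (j : k) := fun j =>
    AddMonoidHom.liftOfRightInverse_comp_apply π _ _ ⟨Int.castAddHom k, hker⟩ j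
  refine ⟨⟨f₀, fun δ t => ?_⟩, ?_⟩
  · obtain ⟨m, hmδ⟩ := euActTors_eq_nsmul (T := T) δ
    obtain ⟨m', hm'1, hm'2⟩ := hm δ
    -- `m ≡ m' mod p`
    have h1 := euActTors_coe δ t₀
    rw [hmδ t₀, euTors_coe_nsmul, ht₀, hm'1] at h1
    have h2 : m ≡ m' [MOD p] := by
      have hp' : p = orderOf ζ := hζ.eq_orderOf
      have e1 : ζ ^ (m % orderOf ζ) = ζ ^ (m' % orderOf ζ) := by
        rw [pow_mod_orderOf, pow_mod_orderOf]
        exact h1
      rw [← hp'] at e1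
      exact hζ.pow_inj (Nat.mod_lt _ (Fact.out : p.Prime).pos)
        (Nat.mod_lt _ (Fact.out : p.Prime).pos) e1
    have h3 : (m : k) = (m' : k) := (CharP.natCast_eq_natCast k p).mpr h2
    rw [hmδ t, map_nsmul, nsmul_eq_mul, hm'2, h3]
  · have := hf₀ 1
    rwa [one_zsmul, Int.cast_one] at this

variable (hΔ : (Nat.card Δ).Coprime p)

/-- `d_χ(μ(T)/p) = [ζ_p ∈ T ∧ χ = ω]` -/
theorem euDim_tors : euDim χ (euActTors T Δ) = euOmegaInd T Δ p χ := by
  classical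
  rw [euOmegaInd_eq]
  obtain ⟨ξ, hξ⟩ := euTors_exists_generator T
  by_cases h : EuOmegaCond T Δ p χ
  · rw [if_pos h]
    obtain ⟨f, hf⟩ := eu_exists_of_omegaCond p χ h ξ hξ
    have hsurj : Function.Surjective (euTorsEv χ (Δ := Δ) ξ) := by
      intro c
      refine ⟨c • f, ?_⟩
      show c * f.1 ξ = c
      rw [hf, mul_one]
    have e := LinearEquiv.ofBijective (euTorsEv χ (Δ := Δ) ξ)
      ⟨euTorsEv_injective χ ξ hξ, hsurj⟩
    unfold euDim
    rw [LinearEquiv.finrank_eq e, Module.finrank_self]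
  · rw [if_neg h]
    have hbot : euX χ (euActTors T Δ) = ⊥ := by
      rw [Submodule.eq_bot_iff]
      intro f hf
      by_contra hne
      exact h (euOmegaCond_of_ne_zero p χ ⟨f, hf⟩ (fun h0 => hne (congrArg Subtype.val h0)))
    unfold euDim
    rw [hbot, finrank_bot]

end Main

end Torsion

end Fermat.Agent.S56
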