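import Fermat.Agent.S56.EU.Algebra

set_option autoImplicit false
set_option linter.unusedSectionVars false
set_option linter.style.haveILetI false
open NumberField NumberField.Units
namespace Fermat.Agent.S56

section Fun

variable (Δ : Type*) [Group Δ] (X : Type*) [MulAction Δ X] (M : Type*) [AddCommGroup M]

/-- the action on functions `X → M`: `(δ φ)(x) = φ (δ⁻¹ x)` -/
def euActFun : EuAct Δ (X → M) where
  toFun δ :=
    { toFun := fun φ x => φ (δ⁻¹ • x)
      map_zero' := rfl
      map_add' := fun _ _ => rfl }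
  map_one' := by
    ext φ x
    show φ ((1 : Δ)⁻¹ • x) = φ x
    simp
  map_mul' := by
    intro δ δ'
    ext φ x
    show φ ((δ * δ')⁻¹ • x) = φ (δ'⁻¹ • δ⁻¹ • x)
    rw [mul_inv_rev, mul_smul]

@[simp] theorem euActFun_apply (δ : Δ) (φ : X → M) (x : X) :
    euActFun Δ X M δ φ x = φ (δ⁻¹ • x) := rfl

theorem euActFun_int : euActFun Δ X ℤ = euActPerm Δ X := rfl

end Fun

section Sign

/-- the sign argument: a matrix with negative off-diagonal entries and zero weighted column sums
has no integer relation with zero sum. -/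
theorem eu_sign_argument {Z : Type*} [Fintype Z] (L : Z → Z → ℝ) (m : Z → ℝ)
    (hm : ∀ z, 0 < m z) (hneg : ∀ z' z, z' ≠ z → L z' z < 0)
    (hcol : ∀ z, ∑ z', m z' * L z' z = 0)
    (a : Z → ℤ) (hsum : ∑ z, a z = 0) (hrel : ∀ z', ∑ z, (a z : ℝ) * L z' z = 0) : a = 0 := by
  classical
  let P : Finset Z := Finset.univ.filter (fun z => 0 < a z)
  let c : Z → ℝ := fun z => ∑ z' ∈ P, m z' * L z' z
  -- the key identity `Σ_z a_z c_z = 0`
  have hkey : ∑ z, (a z : ℝ) * c z = 0 := by
    have h1 : ∑ z' ∈ P, m z' * ∑ z, (a z : ℝ) * L z' z = 0 :=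
      Finset.sum_eq_zero (fun z' _ => by rw [hrel z', mul_zero])
    rw [← h1]
    simp only [c, Finset.mul_sum]
    rw [Finset.sum_comm]
    refine Finset.sum_congr rfl (fun z' _ => Finset.sum_congr rfl (fun z _ => ?_))
    ring
  -- the complementary expression of `c z`
  have hc' : ∀ z, c z = - ∑ z' ∈ Pᶜ, m z' * L z' z := by
    intro z
    have := hcol z
    rw [← Finset.sum_add_sum_compl P] at this
    show ∑ z' ∈ P, m z' * L z' z = _
    linarith
  have hterm : ∀ z, 0 ≤ (a z : ℝ) * c z := by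
    intro z
    by_cases hz : z ∈ P
    · have ha : 0 < (a z : ℝ) := by exact_mod_cast (Finset.mem_filter.mp hz).2
      have hcz : 0 ≤ c z := by
        rw [hc', neg_nonneg]
        refine Finset.sum_nonpos (fun z' hz' => ?_)
        have hne : z' ≠ z := fun h => (Finset.mem_compl.mp hz') (h ▸ hz)
        exact (mul_neg_of_pos_of_neg (hm z') (hneg z' z hne)).le
      exact mul_nonneg ha.le hcz
    · have ha : (a z : ℝ) ≤ 0 := by
        have : ¬ 0 < a z := fun h => hz (Finset.mem_filter.mpr ⟨Finset.mem_univ _, h⟩)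
        exact_mod_cast not_lt.mp this
      have hcz : c z ≤ 0 := by
        refine Finset.sum_nonpos (fun z' hz' => ?_)
        have hne : z' ≠ z := fun h => hz (h ▸ hz')
        exact (mul_neg_of_pos_of_neg (hm z') (hneg z' z hne)).le
      exact mul_nonneg_of_nonpos_of_nonpos ha hcz
  have hzero : ∀ z, (a z : ℝ) * c z = 0 := by
    intro z
    exact (Finset.sum_eq_zero_iff_of_nonneg (fun z _ => hterm z)).mp hkey z (Finset.mem_univ z)
  -- `P` is empty
  have hP : P = ∅ := by
    by_contra hP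
    obtain ⟨z, hz⟩ := Finset.nonempty_iff_ne_empty.mpr hP
    have ha : 0 < (a z : ℝ) := by exact_mod_cast (Finset.mem_filter.mp hz).2
    have hcz : c z = 0 := by
      rcases mul_eq_zero.mp (hzero z) with h | h
      · exact absurd h ha.ne'
      · exact h
    -- hence the complement of `P` is empty
    have hPc : Pᶜ = ∅ := by
      by_contra hPc
      obtain ⟨z₁, hz₁⟩ := Finset.nonempty_iff_ne_empty.mpr hPc
      have : c z > 0 := by
        rw [hc', gt_iff_lt, neg_pos]
        refine Finset.sum_neg (fun z' hz' => ?_) ⟨z₁, hz₁⟩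
        have hne : z' ≠ z := fun h => (Finset.mem_compl.mp hz') (h ▸ hz)
        exact mul_neg_of_pos_of_neg (hm z') (hneg z' z hne)
      exact this.ne' hcz
    have hall : ∀ z, 0 < a z := by
      intro z
      have : z ∈ P := by
        by_contra h
        have : z ∈ Pᶜ := Finset.mem_compl.mpr h
        rw [hPc] at this
        exact absurd this (Finset.notMem_empty z)
      exact (Finset.mem_filter.mp this).2
    have : 0 < ∑ z, a z := Finset.sum_pos (fun z _ => hall z) ⟨z, Finset.mem_univ z⟩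
    exact this.ne' hsum
  have hall : ∀ z, a z ≤ 0 := by
    intro z
    by_contra h
    have : z ∈ P := Finset.mem_filter.mpr ⟨Finset.mem_univ _, not_le.mp h⟩
    rw [hP] at this
    exact absurd this (Finset.notMem_empty z)
  funext z
  exact (Finset.sum_eq_zero_iff_of_nonpos (fun z _ => hall z)).mp hsum z (Finset.mem_univ z)

end Sign

section Units

variable {T : Type*} [Field T] [NumberField T] {Δ : Type*} [Group Δ] [Fintype Δ]
  [MulSemiringAction Δ T]

attribute [local instance] Units.mulDistribMulActionRight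

variable (T Δ) in
/-- the action of `Δ` on the units of `𝓞 T` -/
def euActU : EuAct Δ (Additive (𝓞 T)ˣ) := euActMul Δ (𝓞 T)ˣ

theorem euActU_coe (δ : Δ) (u : Additive (𝓞 T)ˣ) :
    (((euActU T Δ δ u).toMul : (𝓞 T)ˣ) : T) = δ • ((u.toMul : (𝓞 T)ˣ) : T) := rfl

variable {Z : Type*} [Fintype Z] [MulAction Δ Z] (pli : Z → InfinitePlace T)

/-- the log map `u ↦ (log |u|_z)_z` -/
noncomputable def euLog : Additive (𝓞 T)ˣ →+ (Z → ℝ) where
  toFun u z := Real.log (pli z ((u.toMul : (𝓞 T)ˣ) : T))
  map_zero' := by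
    funext z
    simp
  map_add' u v := by
    funext z
    show Real.log (pli z (((u.toMul * v.toMul : (𝓞 T)ˣ)) : T)) = _
    rw [Units.val_mul, map_mul, map_mul, Real.log_mul]
    · rfl
    · exact (pos_at_place _ _).ne'
    · exact (pos_at_place _ _).ne'

theorem euLog_apply (u : Additive (𝓞 T)ˣ) (z : Z) :
    euLog pli u z = Real.log (pli z ((u.toMul : (𝓞 T)ˣ) : T)) := rfl

theorem euLog_eq_zero_iff (hpli : Function.Surjective pli) (u : Additive (𝓞 T)ˣ) :
    euLog pli u = 0 ↔ u.toMul ∈ torsion T := by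
  rw [mem_torsion]
  constructor
  · intro h w
    obtain ⟨z, rfl⟩ := hpli w
    have h1 : Real.log (pli z ((u.toMul : (𝓞 T)ˣ) : T)) = 0 := congrFun h z
    have hpos := pos_at_place (u.toMul : (𝓞 T)ˣ) (pli z)
    exact Real.eq_one_of_pos_of_log_eq_zero hpos h1
  · intro h
    funext z
    rw [euLog_apply]
    have := h (pli z)
    rw [this, Real.log_one]
    rfl

theorem euLog_equivariant (hpli_eq : ∀ (δ : Δ) (z : Z) (x : T), pli (δ • z) (δ • x) = pli z x)
    (δ : Δ) (u : Additive (𝓞 T)ˣ) :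
    euLog pli (euActU T Δ δ u) = euActFun Δ Z ℝ δ (euLog pli u) := by
  funext z
  rw [euActFun_apply, euLog_apply, euLog_apply, euActU_coe]
  have := hpli_eq δ (δ⁻¹ • z) ((u.toMul : (𝓞 T)ˣ) : T)
  rw [smul_inv_smul] at this
  rw [this]


section Dom

variable (hinj : Function.Injective pli)
  (hpli_eq : ∀ (δ : Δ) (z : Z) (x : T), pli (δ • z) (δ • x) = pli z x)

/-- Mathlib's dominant unit at the place `pli z` -/
noncomputable def euDom0 (z : Z) : (𝓞 T)ˣ :=
  (dirichletUnitTheorem.exists_unit T (pli z)).choose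

theorem euDom0_spec (z : Z) (w : InfinitePlace T) (hw : w ≠ pli z) :
    Real.log (w ((euDom0 pli z : (𝓞 T)ˣ) : T)) < 0 :=
  (dirichletUnitTheorem.exists_unit T (pli z)).choose_spec w hw

variable (Δ) in
/-- the EQUIVARIANT dominant family `ũ_z = ∏_δ δ (u_{δ⁻¹ z})` -/
noncomputable def euDom (z : Z) : (𝓞 T)ˣ := ∏ δ : Δ, δ • euDom0 pli (δ⁻¹ • z)

theorem euDom_smul (σ : Δ) (z : Z) : euDom Δ pli (σ • z) = σ • euDom Δ pli z := by
  unfold euDom
  rw [Finset.smul_prod']
  refine (Fintype.prod_equiv (Equiv.mulLeft σ) _ _ (fun δ => ?_)).symm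
  rw [Equiv.coe_mulLeft, mul_smul, mul_inv_rev, mul_smul, inv_smul_smul]

include hinj hpli_eq in
theorem euDom_log_neg (z z' : Z) (h : z' ≠ z) :
    Real.log (pli z' ((euDom Δ pli z : (𝓞 T)ˣ) : T)) < 0 := by
  have h1 : ((euDom Δ pli z : (𝓞 T)ˣ) : T) =
      ∏ δ : Δ, δ • ((euDom0 pli (δ⁻¹ • z) : (𝓞 T)ˣ) : T) := by
    unfold euDom
    rw [Units.coe_prod, map_prod]
    rfl
  rw [h1, map_prod, Real.log_prod]
  · refine Finset.sum_neg (fun δ _ => ?_) Finset.univ_nonempty
    have h2 := hpli_eq δ (δ⁻¹ • z') ((euDom0 pli (δ⁻¹ • z) : (𝓞 T)ˣ) : T)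
    rw [smul_inv_smul] at h2
    rw [h2]
    refine euDom0_spec pli _ _ (fun h3 => h ?_)
    have h4 := hinj h3
    exact smul_left_cancel _ h4
  · intro δ _
    have h2 := hpli_eq δ (δ⁻¹ • z') ((euDom0 pli (δ⁻¹ • z) : (𝓞 T)ˣ) : T)
    rw [smul_inv_smul] at h2
    rw [h2]
    exact (pos_at_place _ _).ne'

end Dom

section Lattice

variable (hpli : Function.Bijective pli)
  (hpli_eq : ∀ (δ : Δ) (z : Z) (x : T), pli (δ • z) (δ • x) = pli z x)

/-- the unit lattice `Λ = log(𝓞ˣ) ⊆ ℝ^Z` -/
noncomputable def euLat : AddSubgroup (Z → ℝ) := (euLog pli).range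

include hpli_eq in
theorem euLat_stable (δ : Δ) (φ : Z → ℝ) (hφ : φ ∈ euLat pli) :
    euActFun Δ Z ℝ δ φ ∈ euLat pli := by
  obtain ⟨u, rfl⟩ := hφ
  exact ⟨euActU T Δ δ u, euLog_equivariant pli hpli_eq δ u⟩

/-- the action of `Δ` on the unit lattice -/
noncomputable def euActLat : EuAct Δ (euLat pli) :=
  euActRestrict (euActFun Δ Z ℝ) (euLat pli) (fun δ φ hφ => euLat_stable pli hpli_eq δ φ hφ)

/-- `log : 𝓞ˣ → Λ` -/
noncomputable def euLogR : Additive (𝓞 T)ˣ →+ euLat pli := (euLog pli).rangeRestrict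

theorem euLogR_coe (u : Additive (𝓞 T)ˣ) : ((euLogR pli u : euLat pli) : Z → ℝ) = euLog pli u :=
  rfl

theorem euLogR_surjective : Function.Surjective (euLogR pli) :=
  (euLog pli).rangeRestrict_surjective

theorem euLogR_equivariant (δ : Δ) (u : Additive (𝓞 T)ˣ) :
    euLogR pli (euActU T Δ δ u) = euActLat pli hpli_eq δ (euLogR pli u) :=
  Subtype.ext (euLog_equivariant pli hpli_eq δ u)

theorem euLat_torsionFree (n : ℕ) (hn : n ≠ 0) (x : euLat pli) (hx : n • x = 0) : x = 0 := by
  apply Subtype.ext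
  have h1 : n • (x : Z → ℝ) = 0 := by
    have := congrArg Subtype.val hx
    simpa using this
  funext z
  have h2 := congrFun h1 z
  simp only [Pi.smul_apply, nsmul_eq_mul, Pi.zero_apply, mul_eq_zero] at h2
  rcases h2 with h2 | h2
  · exact absurd (by exact_mod_cast h2) hn
  · exact h2

instance euLat_finite : Module.Finite ℤ (euLat pli) :=
  Module.Finite.of_surjective (euLogR pli).toIntLinearMap (euLogR_surjective pli)

instance euLat_noZeroSMulDivisors : NoZeroSMulDivisors ℤ (euLat pli) := by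
  refine ⟨fun {c x} h => ?_⟩
  by_cases hc : c = 0
  · exact Or.inl hc
  · right
    apply Subtype.ext
    have h1 : c • (x : Z → ℝ) = 0 := by
      have := congrArg Subtype.val h
      simpa using this
    funext z
    have h2 := congrFun h1 z
    simp only [Pi.smul_apply, zsmul_eq_mul, Pi.zero_apply, mul_eq_zero] at h2
    rcases h2 with h2 | h2
    · exact absurd (by exact_mod_cast h2) hc
    · exact h2

instance euLat_free : Module.Free ℤ (euLat pli) := Module.free_of_finite_type_torsion_free'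

include hpli in
theorem euLat_finrank : Module.finrank ℤ (euLat pli) = Fintype.card Z - 1 := by
  have hsurj : Function.Surjective (euLogR pli).toIntLinearMap := euLogR_surjective pli
  have e := LinearMap.quotKerEquivOfSurjective (euLogR pli).toIntLinearMap hsurj
  rw [← LinearEquiv.finrank_eq e, finrank_quotient_eq_of_le_torsion, Units.finrank_eq, Units.rank,
    ← Fintype.card_of_bijective hpli]
  intro u hu
  have h1 : euLog pli u = 0 := by
    have : euLogR pli u = 0 := hu
    exact congrArg Subtype.val this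
  have h2 := (euLog_eq_zero_iff pli hpli.2 u).mp h1
  obtain ⟨n, hn, hpow⟩ := isOfFinOrder_iff_pow_eq_one.mp ((CommGroup.mem_torsion _).mp h2)
  rw [Submodule.mem_torsion_iff]
  refine ⟨⟨(n : ℤ), mem_nonZeroDivisors_of_ne_zero (by exact_mod_cast hn.ne')⟩, ?_⟩
  show (n : ℤ) • u = 0
  rw [natCast_zsmul]
  exact congrArg Additive.ofMul hpow

end Lattice

section Psi

variable (hpli : Function.Bijective pli)
  (hpli_eq : ∀ (δ : Δ) (z : Z) (x : T), pli (δ • z) (δ • x) = pli z x)

variable (Δ) in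
/-- `a ↦ Σ_z a_z • ũ_z` -/
noncomputable def euComb : (Z → ℤ) →+ Additive (𝓞 T)ˣ :=
  ∑ z : Z, (zmultiplesHom (Additive (𝓞 T)ˣ) (Additive.ofMul (euDom Δ pli z))).comp
    (Pi.evalAddMonoidHom (fun _ : Z => ℤ) z)

theorem euComb_apply (a : Z → ℤ) :
    euComb Δ pli a = ∑ z : Z, a z • Additive.ofMul (euDom Δ pli z) := by
  rw [euComb, AddMonoidHom.finsetSum_apply]
  rfl

theorem euComb_equivariant (δ : Δ) (a : Z → ℤ) :
    euComb Δ pli (euActPerm Δ Z δ a) = euActU T Δ δ (euComb Δ pli a) := by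
  rw [euComb_apply, euComb_apply, map_sum]
  refine (Fintype.sum_equiv (MulAction.toPerm δ) _ _ (fun z => ?_)).symm
  rw [map_zsmul, MulAction.toPerm_apply, euActPerm_apply, inv_smul_smul, euDom_smul]
  rfl

/-- the sum map `ℤ[Z] → ℤ` (the trivial module is modelled as `PUnit → ℤ`) -/
def euAug : (Z → ℤ) →+ (PUnit.{1} → ℤ) where
  toFun a := fun _ => ∑ z, a z
  map_zero' := by
    funext _
    simp
  map_add' a b := by
    funext _
    simp [Finset.sum_add_distrib]

variable (Δ) in
/-- `Ψ : ℤ[Z] → Λ × ℤ`, `a ↦ (log Π ũ_z^{a_z}, Σ a_z)` -/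
noncomputable def euPsi : (Z → ℤ) →+ (euLat pli) × (PUnit.{1} → ℤ) :=
  ((euLogR pli).comp (euComb Δ pli)).prod euAug

theorem euPsi_equivariant (δ : Δ) (a : Z → ℤ) :
    euPsi Δ pli (euActPerm Δ Z δ a) =
      euActProd (euActLat pli hpli_eq) (euActPerm Δ PUnit.{1}) δ (euPsi Δ pli a) := by
  apply Prod.ext
  · show euLogR pli (euComb Δ pli (euActPerm Δ Z δ a)) =
      euActLat pli hpli_eq δ (euLogR pli (euComb Δ pli a))
    rw [euComb_equivariant, euLogR_equivariant]
  · funext x
    show ∑ z, a (δ⁻¹ • z) = ∑ z, a z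
    exact Fintype.sum_equiv (MulAction.toPerm δ⁻¹) _ _ (fun z => rfl)

include hpli hpli_eq in
theorem euPsi_injective : Function.Injective (euPsi Δ pli) := by
  rw [injective_iff_map_eq_zero]
  intro a ha
  have h1 : euLog pli (euComb Δ pli a) = 0 := by
    have : euLogR pli (euComb Δ pli a) = 0 := congrArg Prod.fst ha
    exact congrArg Subtype.val this
  have h2 : ∑ z, a z = 0 := by
    have : euAug a = 0 := congrArg Prod.snd ha
    exact congrFun this PUnit.unit
  refine eu_sign_argument (fun z' z => Real.log (pli z' ((euDom Δ pli z : (𝓞 T)ˣ) : T)))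
    (fun z' => ((pli z').mult : ℝ)) (fun z' => ?_) (fun z' z h => ?_) (fun z => ?_) a h2
    (fun z' => ?_)
  · exact_mod_cast InfinitePlace.mult_pos
  · exact euDom_log_neg pli hpli.1 hpli_eq z z' h
  · have := sum_mult_mul_log (euDom Δ pli z)
    rw [← this]
    exact Fintype.sum_bijective pli hpli _ _ (fun z' => rfl)
  · have h3 := congrFun h1 z'
    rw [euComb_apply, map_sum] at h3
    rw [Finset.sum_apply] at h3
    have h4 : (0 : Z → ℝ) z' = 0 := rfl
    rw [h4] at h3
    rw [← h3]
    refine Finset.sum_congr rfl (fun z _ => ?_)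
    rw [map_zsmul, Pi.smul_apply, zsmul_eq_mul]
    rfl

end Psi

section Index

variable (hpli : Function.Bijective pli)
  (hpli_eq : ∀ (δ : Δ) (z : Z) (x : T), pli (δ • z) (δ • x) = pli z x)

include hpli hpli_eq in
theorem euPsi_index_ne_zero : (euPsi Δ pli).range.index ≠ 0 := by
  classical
  let f : (Z → ℤ) →ₗ[ℤ] (euLat pli) × (PUnit.{1} → ℤ) := (euPsi Δ pli).toIntLinearMap
  have hf : Function.Injective f := euPsi_injective pli hpli hpli_eq
  haveI : Nonempty Z := by
    obtain ⟨z, _⟩ := hpli.2 (Classical.arbitrary (InfinitePlace T))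
    exact ⟨z⟩
  have hpos : 0 < Fintype.card Z := Fintype.card_pos
  have h1 : Module.finrank ℤ (LinearMap.range f) = Fintype.card Z := by
    rw [LinearMap.finrank_range_of_inj hf, Module.finrank_fintype_fun_eq_card]
  have h2 : Module.finrank ℤ ((euLat pli) × (PUnit.{1} → ℤ)) = Fintype.card Z := by
    rw [Module.finrank_prod, euLat_finrank pli hpli, Module.finrank_fintype_fun_eq_card,
      Fintype.card_punit]
    omega
  haveI : Finite (((euLat pli) × (PUnit.{1} → ℤ)) ⧸ LinearMap.range f) :=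
    Submodule.finiteQuotientOfFreeOfRankEq (LinearMap.range f) (h1.trans h2.symm)
  have h3 : (LinearMap.range f).toAddSubgroup = (euPsi Δ pli).range := by
    ext x
    rfl
  haveI : Finite (((euLat pli) × (PUnit.{1} → ℤ)) ⧸ (LinearMap.range f).toAddSubgroup) :=
    inferInstanceAs (Finite (((euLat pli) × (PUnit.{1} → ℤ)) ⧸ LinearMap.range f))
  rw [← h3]
  exact AddSubgroup.index_ne_zero_of_finite

end Index

section Tors

variable (T Δ) in
/-- the torsion units, as a subgroup of `Additive (𝓞 T)ˣ` -/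
def euTors : AddSubgroup (Additive (𝓞 T)ˣ) := (torsion T).toAddSubgroup

theorem mem_euTors (u : Additive (𝓞 T)ˣ) : u ∈ euTors T ↔ u.toMul ∈ torsion T := Iff.rfl

theorem euTors_stable (δ : Δ) (u : Additive (𝓞 T)ˣ) (hu : u ∈ euTors T) :
    euActU T Δ δ u ∈ euTors T := by
  rw [mem_euTors] at hu ⊢
  obtain ⟨n, hn, hpow⟩ := isOfFinOrder_iff_pow_eq_one.mp ((CommGroup.mem_torsion _).mp hu)
  refine (CommGroup.mem_torsion _).mpr (isOfFinOrder_iff_pow_eq_one.mpr ⟨n, hn, ?_⟩)
  show (δ • (u.toMul : (𝓞 T)ˣ)) ^ n = 1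
  rw [← smul_pow', hpow, smul_one]

variable (T Δ) in
/-- the action of `Δ` on the torsion units -/
def euActTors : EuAct Δ (euTors T) :=
  euActRestrict (euActU T Δ) (euTors T) (fun δ u hu => euTors_stable δ u hu)

end Tors

section TrivInd

omit [Fintype Δ] in
theorem euOrbCount_punit {k : Type*} [Field k] (χ : Δ →* kˣ) :
    euOrbCount χ PUnit.{1} = euTrivInd χ := by
  classical
  unfold euOrbCount euTrivInd
  haveI : Subsingleton (MulAction.orbitRel.Quotient Δ PUnit.{1}) := by
    refine ⟨fun a b => ?_⟩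
    induction a using Quotient.inductionOn'
    induction b using Quotient.inductionOn'
    rfl
  by_cases h : χ = 1
  · rw [if_pos h]
    rw [Nat.card_eq_one_iff_unique]
    refine ⟨inferInstance, ⟨⟨Quotient.mk'' PUnit.unit, fun x _ δ _ => ?_⟩⟩⟩
    rw [h]
    rfl
  · rw [if_neg h]
    haveI : IsEmpty {o : MulAction.orbitRel.Quotient Δ PUnit.{1} //
        ∀ x : PUnit.{1}, (Quotient.mk'' x : MulAction.orbitRel.Quotient Δ PUnit.{1}) = o →
          ∀ δ ∈ MulAction.stabilizer Δ x, χ δ = 1} := by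
      refine ⟨fun o => h ?_⟩
      ext δ
      have h1 : (Quotient.mk'' PUnit.unit : MulAction.orbitRel.Quotient Δ PUnit.{1}) = o.1 :=
        Subsingleton.elim _ _
      have := o.2 PUnit.unit h1 δ (by rw [MulAction.mem_stabilizer_iff])
      rw [this]
      rfl
    exact Nat.card_of_isEmpty

end TrivInd

section UnitsThm

variable (hpli : Function.Bijective pli)
  (hpli_eq : ∀ (δ : Δ) (z : Z) (x : T), pli (δ • z) (δ • x) = pli z x)
  (p : ℕ) [Fact p.Prime] {k : Type*} [Field k] [CharP k p] (χ : Δ →* kˣ)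
  (hΔ : (Nat.card Δ).Coprime p)

include hpli hpli_eq hΔ in
/-- EQUIVARIANT DIRICHLET UNIT THEOREM mod `p`:
`d_χ(𝓞ˣ/p) + [χ = 1] = d_χ(μ(T)/p) + #{orbits on the infinite places with χ|Stab = 1}`. -/
theorem eu_units :
    euDim χ (euActU T Δ) + euTrivInd χ = euDim χ (euActTors T Δ) + euOrbCount χ Z := by
  haveI := eu_finite χ (euActU T Δ)
  haveI := eu_finite χ (euActLat pli hpli_eq)
  haveI := eu_finite χ (euActPerm Δ PUnit.{1})
  have hSES := euDim_of_exact p χ (euActTors T Δ) (euActU T Δ) (euActLat pli hpli_eq) hΔ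
    (euTors T).subtype (euLogR pli) (fun δ a => rfl)
    (fun δ b => euLogR_equivariant pli hpli_eq δ b) Subtype.val_injective
    (euLogR_surjective pli)
    (fun b => by
      constructor
      · intro hb
        have h1 : euLog pli b = 0 := congrArg Subtype.val hb
        exact ⟨⟨b, (euLog_eq_zero_iff pli hpli.2 b).mp h1⟩, rfl⟩
      · rintro ⟨a, rfl⟩
        apply Subtype.ext
        exact (euLog_eq_zero_iff pli hpli.2 _).mpr a.2)
    (fun c hc => euLat_torsionFree pli p (Fact.out : p.Prime).ne_zero c hc)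
  have hFI := euDim_eq_of_finiteIndex p χ hΔ (euActPerm Δ Z)
    (euActProd (euActLat pli hpli_eq) (euActPerm Δ PUnit.{1})) (euPsi Δ pli)
    (fun δ a => euPsi_equivariant pli hpli_eq δ a) (euPsi_injective pli hpli hpli_eq)
    (fun b hb => by
      apply Prod.ext
      · exact euLat_torsionFree pli p (Fact.out : p.Prime).ne_zero b.1 (congrArg Prod.fst hb)
      · have h2 : p • b.2 = 0 := congrArg Prod.snd hb
        funext x
        have h3 := congrFun h2 x
        simp only [Pi.smul_apply, nsmul_eq_mul, Pi.zero_apply, mul_eq_zero] at h3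
        rcases h3 with h3 | h3
        · exact absurd (by exact_mod_cast h3) (Fact.out : p.Prime).ne_zero
        · exact h3)
    (euPsi_index_ne_zero pli hpli hpli_eq)
  have hPROD := euDim_prod χ (euActLat pli hpli_eq) (euActPerm Δ PUnit.{1})
  have hZ := euDim_perm χ Z
  have hP := euDim_perm χ PUnit.{1}
  rw [euOrbCount_punit] at hP
  omega

end UnitsThm



end Units

end Fermat.Agent.S56
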